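import Mathlib

namespace Fermat.Agent.S52.X5Fl.Param

/-- The key identity `c4T^3 - c6T^2 = 1728 * dT`. -/
theorem c4T_c6T_identity {R : Type*} [CommRing R] (b : R) :
    (b ^ 4 - 12 * b ^ 3 + 14 * b ^ 2 + 12 * b + 1) ^ 3
      - (-((b ^ 2 + 1) * (b ^ 4 - 18 * b ^ 3 + 74 * b ^ 2 + 18 * b + 1))) ^ 2
      = 1728 * (b ^ 5 * (b ^ 2 - 11 * b - 1)) := by
  ring

/-- Step 1: existence of a root of the degree 12 polynomial. -/
theorem exists_root_aux {k : Type*} [Field k] [IsAlgClosed k]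
    (c4 c6 : k) (hΔ : c4 ^ 3 ≠ c6 ^ 2) :
    ∃ b : k, 1728 * c4 ^ 3 * b ^ 5 * (b ^ 2 - 11 * b - 1)
      = (c4 ^ 3 - c6 ^ 2) * (b ^ 4 - 12 * b ^ 3 + 14 * b ^ 2 + 12 * b + 1) ^ 3 := by
  classical
  have hd : c4 ^ 3 - c6 ^ 2 ≠ 0 := sub_ne_zero.mpr hΔ
  let p : Polynomial k :=
    Polynomial.C (1728 * c4 ^ 3) * Polynomial.X ^ 5 *
        (Polynomial.X ^ 2 - 11 * Polynomial.X - 1)
      - Polynomial.C (c4 ^ 3 - c6 ^ 2) *
        (Polynomial.X ^ 4 - 12 * Polynomial.X ^ 3 + 14 * Polynomial.X ^ 2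
          + 12 * Polynomial.X + 1) ^ 3
  have hnat : p.natDegree = 12 := by
    simp only [p]
    compute_degree!
    intro h
    exact hd (by linear_combination -h)
  have hdeg : p.degree ≠ 0 := by
    intro h0
    have h := Polynomial.natDegree_eq_zero_iff_degree_le_zero.mpr (le_of_eq h0)
    omega
  obtain ⟨b, hb⟩ := IsAlgClosed.exists_root p hdeg
  refine ⟨b, ?_⟩
  have hb' : Polynomial.eval b p = 0 := hb
  simp only [p, Polynomial.eval_sub, Polynomial.eval_mul, Polynomial.eval_C,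
    Polynomial.eval_pow, Polynomial.eval_X, Polynomial.eval_add, Polynomial.eval_one,
    Polynomial.eval_ofNat] at hb'
  linear_combination hb'

theorem exists_tate_param {k : Type*} [Field k] [IsAlgClosed k]
    (h2 : (2 : k) ≠ 0) (h3 : (3 : k) ≠ 0) (h5 : (5 : k) ≠ 0)
    (c4 c6 : k) (hΔ : c4 ^ 3 ≠ c6 ^ 2) :
    ∃ w b : k, w ≠ 0 ∧ b ≠ 0 ∧ b ^ 2 - 11 * b - 1 ≠ 0 ∧
      w ^ 4 * (b ^ 4 - 12 * b ^ 3 + 14 * b ^ 2 + 12 * b + 1) = c4 ∧
      w ^ 6 * (-((b ^ 2 + 1) * (b ^ 4 - 18 * b ^ 3 + 74 * b ^ 2 + 18 * b + 1))) = c6 := by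
  have hd : c4 ^ 3 - c6 ^ 2 ≠ 0 := sub_ne_zero.mpr hΔ
  obtain ⟨b, hb⟩ := exists_root_aux c4 c6 hΔ
  have hid := c4T_c6T_identity b
  -- abbreviations
  obtain ⟨A, hA⟩ : ∃ A : k, A = b ^ 4 - 12 * b ^ 3 + 14 * b ^ 2 + 12 * b + 1 := ⟨_, rfl⟩
  obtain ⟨B, hB⟩ : ∃ B : k,
      B = -((b ^ 2 + 1) * (b ^ 4 - 18 * b ^ 3 + 74 * b ^ 2 + 18 * b + 1)) := ⟨_, rfl⟩
  rw [← hA] at hb
  rw [← hA, ← hB] at hid
  have hb0 : b ≠ 0 := by
    rintro rfl
    have hA1 : A = 1 := by rw [hA]; ring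
    rw [hA1] at hb
    apply hd
    linear_combination -hb
  have hq : b ^ 2 - 11 * b - 1 ≠ 0 := by
    intro hq0
    have hA5 : A = 5 * b ^ 2 := by
      rw [hA]; linear_combination (b ^ 2 - b - 1) * hq0
    have hA0 : A ≠ 0 := by
      rw [hA5]; exact mul_ne_zero h5 (pow_ne_zero 2 hb0)
    have h0 : (c4 ^ 3 - c6 ^ 2) * A ^ 3 = 0 := by
      rw [← hb, hq0, mul_zero]
    exact mul_ne_zero hd (pow_ne_zero 3 hA0) h0
  have h1728 : (1728 : k) ≠ 0 := by
    have : (1728 : k) = 2 ^ 6 * 3 ^ 3 := by norm_num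
    rw [this]
    exact mul_ne_zero (pow_ne_zero 6 h2) (pow_ne_zero 3 h3)
  have hstar : c4 ^ 3 * B ^ 2 = c6 ^ 2 * A ^ 3 := by
    linear_combination -hb - c4 ^ 3 * hid
  have hAB : A ^ 3 - B ^ 2 ≠ 0 := by
    rw [hid]
    exact mul_ne_zero h1728 (mul_ne_zero (pow_ne_zero 5 hb0) hq)
  suffices h : ∃ w : k, w ≠ 0 ∧ w ^ 4 * A = c4 ∧ w ^ 6 * B = c6 by
    obtain ⟨w, hw0, h4, h6⟩ := h
    exact ⟨w, b, hw0, hb0, hq, by rw [← hA]; exact h4, by rw [← hB]; exact h6⟩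
  by_cases hc4 : c4 = 0
  · -- Case A
    have hc6 : c6 ≠ 0 := by
      rintro rfl
      apply hΔ
      rw [hc4]; ring
    have hA0 : A = 0 := by
      have h : c6 ^ 2 * A ^ 3 = 0 := by rw [← hstar, hc4]; ring
      rcases mul_eq_zero.mp h with h | h
      · exact absurd (pow_eq_zero_iff (two_ne_zero) |>.mp h) hc6
      · exact pow_eq_zero_iff (three_ne_zero) |>.mp h
    have hB0 : B ≠ 0 := by
      rintro rfl
      apply hAB
      rw [hA0]; ring
    obtain ⟨w, hw⟩ := IsAlgClosed.exists_pow_nat_eq (c6 / B) (n := 6) (by norm_num)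
    refine ⟨w, ?_, ?_, ?_⟩
    · rintro rfl
      have : c6 / B = 0 := by rw [← hw]; ring
      exact div_ne_zero hc6 hB0 this
    · rw [hA0, hc4, mul_zero]
    · rw [hw]; exact div_mul_cancel₀ _ hB0
  · by_cases hc6 : c6 = 0
    · -- Case B
      have hB0 : B = 0 := by
        have h : c4 ^ 3 * B ^ 2 = 0 := by rw [hstar, hc6]; ring
        rcases mul_eq_zero.mp h with h | h
        · exact absurd (pow_eq_zero_iff (three_ne_zero) |>.mp h) hc4
        · exact pow_eq_zero_iff (two_ne_zero) |>.mp h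
      have hA0 : A ≠ 0 := by
        rintro rfl
        apply hAB
        rw [hB0]; ring
      obtain ⟨w, hw⟩ := IsAlgClosed.exists_pow_nat_eq (c4 / A) (n := 4) (by norm_num)
      refine ⟨w, ?_, ?_, ?_⟩
      · rintro rfl
        have : c4 / A = 0 := by rw [← hw]; ring
        exact div_ne_zero hc4 hA0 this
      · rw [hw]; exact div_mul_cancel₀ _ hA0
      · rw [hB0, hc6, mul_zero]
    · -- Case C
      have hA0 : A ≠ 0 := by
        rintro rfl
        have h : c4 ^ 3 * B ^ 2 = 0 := by rw [hstar]; ring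
        rcases mul_eq_zero.mp h with h | h
        · exact absurd (pow_eq_zero_iff (three_ne_zero) |>.mp h) hc4
        · apply hAB
          rw [h]; ring
      have hB0 : B ≠ 0 := by
        rintro rfl
        have h : c6 ^ 2 * A ^ 3 = 0 := by rw [← hstar]; ring
        rcases mul_eq_zero.mp h with h | h
        · exact absurd (pow_eq_zero_iff (two_ne_zero) |>.mp h) hc6
        · exact hA0 (pow_eq_zero_iff (three_ne_zero) |>.mp h)
      obtain ⟨w, hw⟩ := IsAlgClosed.exists_pow_nat_eq ((c6 * A) / (B * c4)) (n := 2)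
        (by norm_num)
      have hr : (c6 * A) / (B * c4) ≠ 0 :=
        div_ne_zero (mul_ne_zero hc6 hA0) (mul_ne_zero hB0 hc4)
      have hBc : B * c4 ≠ 0 := mul_ne_zero hB0 hc4
      have hr' : w ^ 2 * (B * c4) = c6 * A := by
        rw [hw]; exact div_mul_cancel₀ _ hBc
      have hw4 : w ^ 4 * A = c4 := by
        apply mul_right_cancel₀ (pow_ne_zero 2 hBc)
        linear_combination A * (w ^ 2 * (B * c4) + c6 * A) * hr' - hstar
      have hw6 : w ^ 6 * B = c6 := by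
        apply mul_right_cancel₀ (pow_ne_zero 3 hBc)
        linear_combination
          B * ((w ^ 2 * (B * c4)) ^ 2 + w ^ 2 * (B * c4) * (c6 * A) + (c6 * A) ^ 2) * hr'
            - c6 * B * hstar
      refine ⟨w, ?_, hw4, hw6⟩
      rintro rfl
      apply hr
      rw [← hw]; ring

end Fermat.Agent.S52.X5Fl.Param
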