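import Mathlib

/-!
# A point of order dividing five on a Weierstrass curve in Tate form

For a general Weierstrass curve `V` over a field in which `2` and `3` are invertible, whose
invariants `c₄`, `c₆` are the ones of the Tate normal form with parameter `N / D` (twisted
by `w`), the point with `12 x + b₂ = w ^ 2 * (N ^ 2 - 6 * N * D + D ^ 2)` and
`2 y + a₁ x + a₃ = -(w ^ 3 * N * D ^ 2)` is a nonsingular point killed by `5`.
-/

namespace Fermat.Agent.S52.X5Fl.Tate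

open WeierstrassCurve

/-- Doubling formula in the coordinates `ξ = 12 x + b₂`, `η = 2 y + a₁ x + a₃`. -/
theorem double_aux {F : Type*} [Field F] [DecidableEq F] (V : WeierstrassCurve F)
    (h2 : (2 : F) ≠ 0) (h3 : (3 : F) ≠ 0) (x y x₂ y₂ μ : F)
    (h : V.toAffine.Nonsingular x y)
    (hη : 2 * y + V.a₁ * x + V.a₃ ≠ 0)
    (hμ : μ * (8 * (2 * y + V.a₁ * x + V.a₃)) = (12 * x + V.b₂) ^ 2 - V.c₄)
    (hξ₂ : 3 * (12 * x₂ + V.b₂) = μ ^ 2 - 6 * (12 * x + V.b₂))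
    (hη₂ : 36 * (2 * y₂ + V.a₁ * x₂ + V.a₃) =
      -μ * ((12 * x₂ + V.b₂) - (12 * x + V.b₂)) - 36 * (2 * y + V.a₁ * x + V.a₃)) :
    ∃ h₂ : V.toAffine.Nonsingular x₂ y₂,
      WeierstrassCurve.Affine.Point.some x y h + WeierstrassCurve.Affine.Point.some x y h =
        WeierstrassCurve.Affine.Point.some x₂ y₂ h₂ := by
  have h8 : (8 : F) ≠ 0 := by
    have : (8 : F) = 2 ^ 3 := by norm_num
    rw [this]; exact pow_ne_zero _ h2
  have h36 : (36 : F) ≠ 0 := by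
    have : (36 : F) = 2 ^ 2 * 3 ^ 2 := by norm_num
    rw [this]; exact mul_ne_zero (pow_ne_zero _ h2) (pow_ne_zero _ h3)
  have hne : y ≠ V.toAffine.negY x y := by
    intro hy
    apply hη
    simp only [WeierstrassCurve.Affine.negY] at hy
    linear_combination hy
  have hden : y - V.toAffine.negY x y = 2 * y + V.a₁ * x + V.a₃ := by
    simp only [WeierstrassCurve.Affine.negY]; ring
  have hℓ : V.toAffine.slope x x y y * (2 * y + V.a₁ * x + V.a₃) =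
      3 * x ^ 2 + 2 * V.a₂ * x + V.a₄ - V.a₁ * y := by
    rw [WeierstrassCurve.Affine.slope_of_Y_ne rfl hne, hden]
    exact div_mul_cancel₀ _ hη
  set ℓ := V.toAffine.slope x x y y with hℓdef
  have hμℓ : 6 * ℓ + 3 * V.a₁ = μ := by
    have h8η : 8 * (2 * y + V.a₁ * x + V.a₃) ≠ 0 := mul_ne_zero h8 hη
    apply mul_right_cancel₀ h8η
    simp only [WeierstrassCurve.b₂, WeierstrassCurve.b₄, WeierstrassCurve.c₄] at hμ
    linear_combination 48 * hℓ - hμ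
  have hx₂ : x₂ = V.toAffine.addX x x ℓ := by
    apply mul_left_cancel₀ h36
    simp only [WeierstrassCurve.Affine.addX]
    simp only [WeierstrassCurve.b₂] at hξ₂
    rw [← hμℓ] at hξ₂
    linear_combination hξ₂
  have hy₂ : y₂ = V.toAffine.addY x x y ℓ := by
    have h72 : (36 : F) * 2 ≠ 0 := mul_ne_zero h36 h2
    apply mul_left_cancel₀ h72
    simp only [WeierstrassCurve.Affine.addY, WeierstrassCurve.Affine.negAddY,
      WeierstrassCurve.Affine.negY, ← hx₂]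
    rw [← hμℓ] at hη₂
    linear_combination hη₂
  subst hx₂ hy₂
  exact ⟨_, WeierstrassCurve.Affine.Point.add_self_of_Y_ne hne⟩

theorem tate_five_torsion {F : Type*} [Field F] [DecidableEq F] (V : WeierstrassCurve F)
    (h2 : (2 : F) ≠ 0) (h3 : (3 : F) ≠ 0) (w N D x y : F)
    (hw : w ≠ 0) (hN : N ≠ 0) (hD : D ≠ 0) (hΔ : V.Δ ≠ 0)
    (hc4 : V.c₄ = w ^ 4 * (N ^ 4 - 12 * N ^ 3 * D + 14 * N ^ 2 * D ^ 2 + 12 * N * D ^ 3 + D ^ 4))
    (hc6 : V.c₆ = w ^ 6 * (-((N ^ 2 + D ^ 2) * (N ^ 4 - 18 * N ^ 3 * D + 74 * N ^ 2 * D ^ 2 + 18 * N * D ^ 3 + D ^ 4))))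
    (hx : 12 * x + V.b₂ = w ^ 2 * (N ^ 2 - 6 * N * D + D ^ 2))
    (hy : 2 * y + V.a₁ * x + V.a₃ = -(w ^ 3 * N * D ^ 2)) :
    ∃ h : V.toAffine.Nonsingular x y, (5 : ℤ) • (WeierstrassCurve.Affine.Point.some x y h) = 0 := by
  have h12 : (12 : F) ≠ 0 := by
    have : (12 : F) = 2 ^ 2 * 3 := by norm_num
    rw [this]; exact mul_ne_zero (pow_ne_zero _ h2) h3
  have h1728 : (1728 : F) ≠ 0 := by
    have : (1728 : F) = 2 ^ 6 * 3 ^ 3 := by norm_num
    rw [this]; exact mul_ne_zero (pow_ne_zero _ h2) (pow_ne_zero _ h3)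
  -- the point lies on the curve
  have hEq : V.toAffine.Equation x y := by
    rw [WeierstrassCurve.Affine.equation_iff']
    apply mul_left_cancel₀ h1728
    rw [mul_zero]
    have key : 1728 * (y ^ 2 + V.a₁ * x * y + V.a₃ * y
          - (x ^ 3 + V.a₂ * x ^ 2 + V.a₄ * x + V.a₆)) =
        432 * (2 * y + V.a₁ * x + V.a₃) ^ 2 - (12 * x + V.b₂) ^ 3
          + 3 * V.c₄ * (12 * x + V.b₂) + 2 * V.c₆ := by
      simp only [WeierstrassCurve.b₂, WeierstrassCurve.b₄, WeierstrassCurve.b₆,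
        WeierstrassCurve.c₄, WeierstrassCurve.c₆]
      ring
    rw [key, hx, hy, hc4, hc6]
    ring
  have hns : V.toAffine.Nonsingular x y :=
    (WeierstrassCurve.Affine.equation_iff_nonsingular_of_Δ_ne_zero hΔ).mp hEq
  refine ⟨hns, ?_⟩
  -- the double of the point
  obtain ⟨x₂, hx₂⟩ : ∃ x₂ : F, 12 * x₂ + V.b₂ = w ^ 2 * (N ^ 2 + 6 * N * D + D ^ 2) :=
    ⟨(w ^ 2 * (N ^ 2 + 6 * N * D + D ^ 2) - V.b₂) / 12, by field_simp; ring⟩
  obtain ⟨y₂, hy₂⟩ : ∃ y₂ : F, 2 * y₂ + V.a₁ * x₂ + V.a₃ = w ^ 3 * N ^ 2 * D :=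
    ⟨(w ^ 3 * N ^ 2 * D - V.a₁ * x₂ - V.a₃) / 2, by field_simp; ring⟩
  have hη₁ : 2 * y + V.a₁ * x + V.a₃ ≠ 0 := by
    rw [hy]
    exact neg_ne_zero.mpr (mul_ne_zero (mul_ne_zero (pow_ne_zero _ hw) hN) (pow_ne_zero _ hD))
  have hη₂ : 2 * y₂ + V.a₁ * x₂ + V.a₃ ≠ 0 := by
    rw [hy₂]
    exact mul_ne_zero (mul_ne_zero (pow_ne_zero _ hw) (pow_ne_zero _ hN)) hD
  obtain ⟨hns₂, e₁⟩ := double_aux V h2 h3 x y x₂ y₂ (-3 * w * (N - D)) hns hη₁
    (by rw [hx, hy, hc4]; ring) (by rw [hx₂, hx]; ring) (by rw [hx₂, hx, hy₂, hy]; ring)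
  have hy₄ : 2 * V.toAffine.negY x y + V.a₁ * x + V.a₃ = w ^ 3 * N * D ^ 2 := by
    simp only [WeierstrassCurve.Affine.negY]
    linear_combination -hy
  obtain ⟨hns₄, e₂⟩ := double_aux V h2 h3 x₂ y₂ x (V.toAffine.negY x y) (3 * w * (N + D)) hns₂ hη₂
    (by rw [hx₂, hy₂, hc4]; ring) (by rw [hx₂, hx]; ring) (by rw [hx₂, hx, hy₂, hy₄]; ring)
  have e₃ : WeierstrassCurve.Affine.Point.some x (V.toAffine.negY x y) hns₄ +
      WeierstrassCurve.Affine.Point.some x y hns = 0 :=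
    WeierstrassCurve.Affine.Point.add_of_Y_eq rfl rfl
  have e₅ : (5 : ℤ) • WeierstrassCurve.Affine.Point.some x y hns =
      ((WeierstrassCurve.Affine.Point.some x y hns + WeierstrassCurve.Affine.Point.some x y hns) +
        (WeierstrassCurve.Affine.Point.some x y hns + WeierstrassCurve.Affine.Point.some x y hns)) +
        WeierstrassCurve.Affine.Point.some x y hns := by
    abel
  rw [e₅, e₁, e₂, e₃]

end Fermat.Agent.S52.X5Fl.Tate
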