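/-
S52 / [X5Fl] — B-copy of `X5Fl/Section.lean` (helper57; A-owner of the statements: helper44/helper38).

The Tate section of the 5-congruent family: for a Tate parameter `(w, b)` of `(c4, c6)`
(`w⁴·c4T b = c4`, `w⁶·c6T b = c6`) the point `(secX w b t, secY w b t)` is a nonsingular point
killed by `5` on every short model `y² = x³ - 27·fam4 c4 c6 t·x - 54·fam6 c4 c6 t` of the member
with parameter `t`, provided the member is nonsingular.

The two heavy identities `fam4_tate`, `fam6_tate` enter as the hypothesis `TateId F`, so this file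
only needs the definitions of `TateFam`.
-/
import Fermat.Agent.S52.TateFam
import Fermat.Agent.S52.GlueArith
import Fermat.Agent.S52.X5Fl.Tate

set_option autoImplicit false

namespace Fermat.Agent.S52.X5Fl.SectionB

open Fermat.Agent.S52

section Defs

variable {R S : Type*} [CommRing R] [CommRing S]

/-- `x`-coordinate of the Tate section on the short model. -/
def secX (w b t : R) : R :=
  3 * w ^ 2 * (Tate.famN b (w ^ 2 * t) ^ 2 - 6 * Tate.famN b (w ^ 2 * t) * Tate.famD b (w ^ 2 * t)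
    + Tate.famD b (w ^ 2 * t) ^ 2)

/-- `y`-coordinate of the Tate section on the short model. -/
def secY (w b t : R) : R :=
  -(108 * w ^ 3 * Tate.famN b (w ^ 2 * t) * Tate.famD b (w ^ 2 * t) ^ 2)

theorem map_secX (f : R →+* S) (w b t : R) : f (secX w b t) = secX (f w) (f b) (f t) := by
  simp only [secX, map_add, map_sub, map_mul, map_pow, map_ofNat, GlueArith.map_famN,
    GlueArith.map_famD]

theorem map_secY (f : R →+* S) (w b t : R) : f (secY w b t) = secY (f w) (f b) (f t) := by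
  simp only [secY, map_neg, map_mul, map_pow, map_ofNat, GlueArith.map_famN, GlueArith.map_famD]

/-- Isobaricity of `fam4` (weights `4, 6, -2` for `c4, c6, t`). -/
theorem fam4_smul (c4 c6 w t : R) :
    Tate.fam4 (w ^ 4 * c4) (w ^ 6 * c6) t = w ^ 4 * Tate.fam4 c4 c6 (w ^ 2 * t) := by
  unfold Tate.fam4 Tate.fam4c0 Tate.fam4c1 Tate.fam4c2 Tate.fam4c3 Tate.fam4c4 Tate.fam4c5
    Tate.fam4c6 Tate.fam4c7 Tate.fam4c8 Tate.fam4c9 Tate.fam4c10 Tate.fam4c11 Tate.fam4c12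
    Tate.fam4c13 Tate.fam4c14 Tate.fam4c15 Tate.fam4c16 Tate.fam4c17 Tate.fam4c18 Tate.fam4c19
    Tate.fam4c20
  ring

/-- Isobaricity of `fam6`. -/
theorem fam6_smul (c4 c6 w t : R) :
    Tate.fam6 (w ^ 4 * c4) (w ^ 6 * c6) t = w ^ 6 * Tate.fam6 c4 c6 (w ^ 2 * t) := by
  unfold Tate.fam6 Tate.fam6c0 Tate.fam6c1 Tate.fam6c2 Tate.fam6c3 Tate.fam6c4 Tate.fam6c5
    Tate.fam6c6 Tate.fam6c7 Tate.fam6c8 Tate.fam6c9 Tate.fam6c10 Tate.fam6c11 Tate.fam6c12
    Tate.fam6c13 Tate.fam6c14 Tate.fam6c15 Tate.fam6c16 Tate.fam6c17 Tate.fam6c18 Tate.fam6c19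
    Tate.fam6c20 Tate.fam6c21 Tate.fam6c22 Tate.fam6c23 Tate.fam6c24 Tate.fam6c25 Tate.fam6c26
    Tate.fam6c27 Tate.fam6c28 Tate.fam6c29 Tate.fam6c30
  ring

/-- Discriminant of the homogeneous Tate forms. -/
theorem C4form_cube_sub (n m : R) :
    Tate.C4form n m ^ 3 - Tate.C6form n m ^ 2 =
      1728 * n ^ 5 * m ^ 5 * (n ^ 2 - 11 * n * m - m ^ 2) := by
  unfold Tate.C4form Tate.C6form; ring

/-- The two core identities of the family in the Tate chart (`fam4_tate`, `fam6_tate` of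
`TateFam`), as a hypothesis on a ring: this file does not depend on where their proofs live. -/
def TateId (R : Type*) [CommRing R] : Prop :=
  (∀ d s : R, Tate.fam4 (Tate.c4T d) (Tate.c6T d) s = Tate.C4form (Tate.famN d s) (Tate.famD d s)) ∧
  (∀ d s : R, Tate.fam6 (Tate.c4T d) (Tate.c6T d) s = Tate.C6form (Tate.famN d s) (Tate.famD d s))

/-- The invariants of the member in terms of the Tate parameter of the base curve. -/
theorem fam4_param (hT : TateId R) (w b t : R) :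
    Tate.fam4 (w ^ 4 * Tate.c4T b) (w ^ 6 * Tate.c6T b) t =
      w ^ 4 * Tate.C4form (Tate.famN b (w ^ 2 * t)) (Tate.famD b (w ^ 2 * t)) := by
  rw [fam4_smul, hT.1]

theorem fam6_param (hT : TateId R) (w b t : R) :
    Tate.fam6 (w ^ 4 * Tate.c4T b) (w ^ 6 * Tate.c6T b) t =
      w ^ 6 * Tate.C6form (Tate.famN b (w ^ 2 * t)) (Tate.famD b (w ^ 2 * t)) := by
  rw [fam6_smul, hT.2]

end Defs

/-- **The Tate section is a point killed by `5`** on any short model of a nonsingular member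
(hypothesis form: `hT` is `⟨fun d s => Tate.fam4_tate d s, fun d s => Tate.fam6_tate d s⟩`). -/
theorem section_pt_of {F : Type*} [Field F] [DecidableEq F] (hT : TateId F)
    (V : WeierstrassCurve F)
    (h2 : (2 : F) ≠ 0) (h3 : (3 : F) ≠ 0) (c4 c6 w b t : F) (hw : w ≠ 0)
    (h4 : w ^ 4 * Tate.c4T b = c4) (h6 : w ^ 6 * Tate.c6T b = c6)
    (ha₁ : V.a₁ = 0) (ha₂ : V.a₂ = 0) (ha₃ : V.a₃ = 0)
    (ha₄ : V.a₄ = -27 * Tate.fam4 c4 c6 t) (ha₆ : V.a₆ = -54 * Tate.fam6 c4 c6 t)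
    (hΔ : Tate.fam4 c4 c6 t ^ 3 ≠ Tate.fam6 c4 c6 t ^ 2) :
    ∃ h : V.toAffine.Nonsingular (secX w b t) (secY w b t),
      (5 : ℤ) • (WeierstrassCurve.Affine.Point.some (secX w b t) (secY w b t) h) = 0 := by
  have e4 : Tate.fam4 c4 c6 t =
      w ^ 4 * Tate.C4form (Tate.famN b (w ^ 2 * t)) (Tate.famD b (w ^ 2 * t)) := by
    rw [← h4, ← h6, fam4_param hT]
  have e6 : Tate.fam6 c4 c6 t =
      w ^ 6 * Tate.C6form (Tate.famN b (w ^ 2 * t)) (Tate.famD b (w ^ 2 * t)) := by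
    rw [← h4, ← h6, fam6_param hT]
  have hdisc : Tate.fam4 c4 c6 t ^ 3 - Tate.fam6 c4 c6 t ^ 2 = w ^ 12 *
      (1728 * Tate.famN b (w ^ 2 * t) ^ 5 * Tate.famD b (w ^ 2 * t) ^ 5 *
        (Tate.famN b (w ^ 2 * t) ^ 2 - 11 * Tate.famN b (w ^ 2 * t) * Tate.famD b (w ^ 2 * t)
          - Tate.famD b (w ^ 2 * t) ^ 2)) := by
    rw [e4, e6, ← C4form_cube_sub]; ring
  have hne : Tate.fam4 c4 c6 t ^ 3 - Tate.fam6 c4 c6 t ^ 2 ≠ 0 := sub_ne_zero.mpr hΔ
  have hN : Tate.famN b (w ^ 2 * t) ≠ 0 := by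
    intro h0
    apply hne
    rw [hdisc, h0]; ring
  have hD : Tate.famD b (w ^ 2 * t) ≠ 0 := by
    intro h0
    apply hne
    rw [hdisc, h0]; ring
  have h6' : (6 : F) ≠ 0 := by
    have : (6 : F) = 2 * 3 := by norm_num
    rw [this]; exact mul_ne_zero h2 h3
  have hVΔ : V.Δ = 2 ^ 6 * 3 ^ 9 * (Tate.fam4 c4 c6 t ^ 3 - Tate.fam6 c4 c6 t ^ 2) := by
    simp only [WeierstrassCurve.Δ, WeierstrassCurve.b₂, WeierstrassCurve.b₄, WeierstrassCurve.b₆,
      WeierstrassCurve.b₈, ha₁, ha₂, ha₃, ha₄, ha₆]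
    ring
  have hVΔ' : V.Δ ≠ 0 := by
    rw [hVΔ]
    exact mul_ne_zero (mul_ne_zero (pow_ne_zero _ h2) (pow_ne_zero _ h3)) hne
  refine Tate.tate_five_torsion V h2 h3 (6 * w) (Tate.famN b (w ^ 2 * t))
    (Tate.famD b (w ^ 2 * t)) (secX w b t) (secY w b t) (mul_ne_zero h6' hw) hN hD hVΔ' ?_ ?_ ?_ ?_
  · simp only [WeierstrassCurve.c₄, WeierstrassCurve.b₂, WeierstrassCurve.b₄, ha₁, ha₂, ha₃, ha₄]
    rw [e4]; unfold Tate.C4form; ring
  · simp only [WeierstrassCurve.c₆, WeierstrassCurve.b₂, WeierstrassCurve.b₄, WeierstrassCurve.b₆,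
      ha₁, ha₂, ha₃, ha₄, ha₆]
    rw [e6]; unfold Tate.C6form; ring
  · simp only [WeierstrassCurve.b₂, ha₁, ha₂, secX]; ring
  · simp only [ha₁, ha₃, secY]; ring

end Fermat.Agent.S52.X5Fl.SectionB
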