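/-
S52, block [X5-Fl] (owner: helper44).  The 5-congruence over `F_ℓ`-bar via one Tate section.

`rel_of_rel` : on the family `y² = x³ - 27 fam4(c4,c6,T) x - 54 fam6(c4,c6,T)` over `k[T]`, the
Tate sections attached to three parameters `(wᵢ, bᵢ)` of `(c4, c6)` satisfy the same `ℤ`-linear
relations on the fibre at `T = 0` and on every other good fibre `T = s` (both are equivalent to the
relation on the generic fibre, by `SpecRed.spec_rel`).

`rel_transfer_of` : the export for the Frobenius block (the two family identities `fam4_tate`,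
`fam6_tate` are hypotheses `TateId K`, `TateId (RatFunc K)`; the hypothesis-free wrapper is in
`X5Fl/Export.lean`): for `ℓ ∉ {2, 3, 5}`, `c4 c6 s : ZMod ℓ`, `K` an
algebraically closed field over `ZMod ℓ` and any `f : K →ₐ[ZMod ℓ] K` there are points `P`, `P'` on
the two short curves over `K`, `P'` of exact order `5`, such that every relation
`u f²P + v fP + w P = 0` also holds for `P'`.
-/
import Fermat.Agent.S52.TateFam
import Fermat.Agent.S52.GlueArith
import Fermat.Agent.S52.SpecRed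
import Fermat.Agent.S52.X5Fl.Param
import Fermat.Agent.S52.X5Fl.SectionB

set_option autoImplicit false

namespace Fermat.Agent.S52.X5Fl

open WeierstrassCurve Polynomial
open scoped WeierstrassCurve.Affine
open Fermat.Agent.S52
open Fermat.Agent.S52.X5Fl.SectionB

/-- Congruence for `Point.some` (the nonsingularity proofs are irrelevant). -/
theorem some_congr {F : Type*} [Field F] {V : WeierstrassCurve F} {x x' y y' : F}
    (hx : x = x') (hy : y = y') (h : V.toAffine.Nonsingular x y)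
    (h' : V.toAffine.Nonsingular x' y') :
    Affine.Point.some x y h = Affine.Point.some x' y' h' := by
  subst hx hy; rfl

section Generic

variable {k : Type*} [Field k]

/-- The family over `k[T]`. -/
noncomputable def famCurve (c4 c6 : k) : WeierstrassCurve k[X] :=
  ⟨0, 0, 0, -27 * Tate.fam4 (C c4) (C c6) X, -54 * Tate.fam6 (C c4) (C c6) X⟩

theorem famCurve_map_eval (c4 c6 t0 : k) (V : WeierstrassCurve k)
    (ha₁ : V.a₁ = 0) (ha₂ : V.a₂ = 0) (ha₃ : V.a₃ = 0)
    (ha₄ : V.a₄ = -27 * Tate.fam4 c4 c6 t0) (ha₆ : V.a₆ = -54 * Tate.fam6 c4 c6 t0) :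
    (famCurve c4 c6).map (Polynomial.evalRingHom t0) = V := by
  ext
  · simp [famCurve, ha₁]
  · simp [famCurve, ha₂]
  · simp [famCurve, ha₃]
  · simp only [famCurve, WeierstrassCurve.map_a₄, map_mul, map_neg, map_ofNat,
      GlueArith.map_fam4, Polynomial.coe_evalRingHom, Polynomial.eval_C, Polynomial.eval_X, ha₄]
  · simp only [famCurve, WeierstrassCurve.map_a₆, map_mul, map_neg, map_ofNat,
      GlueArith.map_fam6, Polynomial.coe_evalRingHom, Polynomial.eval_C, Polynomial.eval_X, ha₆]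

theorem eval_secX (w b t0 : k) :
    (secX (C w) (C b) (X : k[X])).eval t0 = secX w b t0 := by
  have := map_secX (Polynomial.evalRingHom t0) (C w) (C b) (X : k[X])
  simpa only [Polynomial.coe_evalRingHom, Polynomial.eval_C, Polynomial.eval_X] using this

theorem eval_secY (w b t0 : k) :
    (secY (C w) (C b) (X : k[X])).eval t0 = secY w b t0 := by
  have := map_secY (Polynomial.evalRingHom t0) (C w) (C b) (X : k[X])
  simpa only [Polynomial.coe_evalRingHom, Polynomial.eval_C, Polynomial.eval_X] using this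

/-- The generic fibre of the family carries the Tate section of every parameter. -/
theorem generic_section [DecidableEq (RatFunc k)] (hT : TateId (RatFunc k))
    (h2 : (2 : k) ≠ 0) (h3 : (3 : k) ≠ 0)
    (c4 c6 w b : k) (hΔ : c4 ^ 3 ≠ c6 ^ 2) (hw : w ≠ 0)
    (h4 : w ^ 4 * Tate.c4T b = c4) (h6 : w ^ 6 * Tate.c6T b = c6) :
    ∃ h : ((famCurve c4 c6).map (algebraMap k[X] (RatFunc k))).toAffine.Nonsingular
        (algebraMap k[X] (RatFunc k) (secX (C w) (C b) X))
        (algebraMap k[X] (RatFunc k) (secY (C w) (C b) X)),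
      ((5 : ℕ) : ℤ) • (Affine.Point.some _ _ h) = 0 := by
  set ι : k[X] →+* RatFunc k := algebraMap k[X] (RatFunc k) with hι
  have hinj : Function.Injective ι := IsFractionRing.injective k[X] (RatFunc k)
  have hCinj : Function.Injective (C : k →+* k[X]) := Polynomial.C_injective
  have inj0 : ∀ a : k, ι (C a) = 0 → a = 0 := by
    intro a ha
    have h1 : (C a : k[X]) = 0 := hinj (by rw [ha, map_zero])
    exact hCinj (by rw [h1, map_zero])
  have h2' : (2 : RatFunc k) ≠ 0 := by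
    intro h
    exact h2 (inj0 2 (by rw [map_ofNat, map_ofNat]; exact h))
  have h3' : (3 : RatFunc k) ≠ 0 := by
    intro h
    exact h3 (inj0 3 (by rw [map_ofNat, map_ofNat]; exact h))
  have hw' : ι (C w) ≠ 0 := fun h => hw (inj0 w h)
  have h4' : ι (C w) ^ 4 * Tate.c4T (ι (C b)) = ι (C c4) := by
    rw [← h4, ← GlueArith.map_c4T, ← GlueArith.map_c4T, ← map_pow, ← map_pow, ← map_mul,
      ← map_mul]
  have h6' : ι (C w) ^ 6 * Tate.c6T (ι (C b)) = ι (C c6) := by
    rw [← h6, ← GlueArith.map_c6T, ← GlueArith.map_c6T, ← map_pow, ← map_pow, ← map_mul,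
      ← map_mul]
  have hΔ' : Tate.fam4 (ι (C c4)) (ι (C c6)) (ι X) ^ 3 ≠ Tate.fam6 (ι (C c4)) (ι (C c6)) (ι X) ^ 2 := by
    intro h
    rw [← GlueArith.map_fam4, ← GlueArith.map_fam6, ← map_pow, ← map_pow] at h
    have h' := congrArg (Polynomial.evalRingHom (0 : k)) (hinj h)
    simp only [map_pow, GlueArith.map_fam4, GlueArith.map_fam6, Polynomial.coe_evalRingHom,
      Polynomial.eval_C, Polynomial.eval_X, GlueArith.fam4_zero, GlueArith.fam6_zero] at h'
    exact hΔ h'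
  obtain ⟨h, h5⟩ := section_pt_of hT ((famCurve c4 c6).map ι) h2' h3' (ι (C c4)) (ι (C c6)) (ι (C w))
    (ι (C b)) (ι X) hw' h4' h6' (by simp [famCurve]) (by simp [famCurve]) (by simp [famCurve])
    (by simp only [famCurve, WeierstrassCurve.map_a₄, map_mul, map_neg, map_ofNat,
      GlueArith.map_fam4])
    (by simp only [famCurve, WeierstrassCurve.map_a₆, map_mul, map_neg, map_ofNat,
      GlueArith.map_fam6]) hΔ'
  have hx : secX (ι (C w)) (ι (C b)) (ι X) = ι (secX (C w) (C b) X) := (map_secX ι _ _ _).symm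
  have hy : secY (ι (C w)) (ι (C b)) (ι X) = ι (secY (C w) (C b) X) := (map_secY ι _ _ _).symm
  have hns : ((famCurve c4 c6).map ι).toAffine.Nonsingular (ι (secX (C w) (C b) X))
      (ι (secY (C w) (C b) X)) := by rw [← hx, ← hy]; exact h
  refine ⟨hns, ?_⟩
  rw [← some_congr hx hy h hns]
  simpa using h5

/-- Relations among Tate sections on the fibre at `T = 0` also hold on every other good fibre
`T = s` (both are equivalent to the relation on the generic fibre). -/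
theorem rel_of_rel [DecidableEq k] (hT : TateId (RatFunc k))
    (h2 : (2 : k) ≠ 0) (h3 : (3 : k) ≠ 0) (h5 : (5 : k) ≠ 0)
    (c4 c6 s : k) (hΔ : c4 ^ 3 ≠ c6 ^ 2)
    (V V' : WeierstrassCurve k)
    (ha₁ : V.a₁ = 0) (ha₂ : V.a₂ = 0) (ha₃ : V.a₃ = 0)
    (ha₄ : V.a₄ = -27 * c4) (ha₆ : V.a₆ = -54 * c6)
    (ha₁' : V'.a₁ = 0) (ha₂' : V'.a₂ = 0) (ha₃' : V'.a₃ = 0)
    (ha₄' : V'.a₄ = -27 * Tate.fam4 c4 c6 s) (ha₆' : V'.a₆ = -54 * Tate.fam6 c4 c6 s)
    (hV : V.Δ ≠ 0) (hV' : V'.Δ ≠ 0)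
    (w b : Fin 3 → k) (hw : ∀ i, w i ≠ 0)
    (h4 : ∀ i, w i ^ 4 * Tate.c4T (b i) = c4) (h6 : ∀ i, w i ^ 6 * Tate.c6T (b i) = c6)
    (hP : ∀ i, V.toAffine.Nonsingular (secX (w i) (b i) 0) (secY (w i) (b i) 0))
    (hP' : ∀ i, V'.toAffine.Nonsingular (secX (w i) (b i) s) (secY (w i) (b i) s))
    (u : Fin 3 → ℤ)
    (hrel : ∑ i, u i • Affine.Point.some _ _ (hP i) = 0) :
    ∑ i, u i • Affine.Point.some _ _ (hP' i) = 0 := by
  classical
  have hgen := fun i => generic_section hT h2 h3 c4 c6 (w i) (b i) hΔ (hw i) (h4 i) (h6 i)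
  have hS : ∀ i, ((famCurve c4 c6).map (algebraMap k[X] (RatFunc k))).toAffine.Nonsingular
      (algebraMap k[X] (RatFunc k) (secX (C (w i)) (C (b i)) X))
      (algebraMap k[X] (RatFunc k) (secY (C (w i)) (C (b i)) X)) := fun i => (hgen i).choose
  have htors : ∀ i, ((5 : ℕ) : ℤ) • Affine.Point.some _ _ (hS i) = 0 :=
    fun i => (hgen i).choose_spec
  have hW0 : (famCurve c4 c6).map (Polynomial.evalRingHom 0) = V :=
    famCurve_map_eval c4 c6 0 V ha₁ ha₂ ha₃ (by rw [ha₄, GlueArith.fam4_zero])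
      (by rw [ha₆, GlueArith.fam6_zero])
  have hWs : (famCurve c4 c6).map (Polynomial.evalRingHom s) = V' :=
    famCurve_map_eval c4 c6 s V' ha₁' ha₂' ha₃' ha₄' ha₆'
  have hs0 : ∀ i, V.toAffine.Nonsingular ((secX (C (w i)) (C (b i)) (X : k[X])).eval 0)
      ((secY (C (w i)) (C (b i)) (X : k[X])).eval 0) := fun i => by
    rw [eval_secX, eval_secY]; exact hP i
  have hss : ∀ i, V'.toAffine.Nonsingular ((secX (C (w i)) (C (b i)) (X : k[X])).eval s)
      ((secY (C (w i)) (C (b i)) (X : k[X])).eval s) := fun i => by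
    rw [eval_secX, eval_secY]; exact hP' i
  have h5' : ((5 : ℕ) : k) ≠ 0 := by exact_mod_cast h5
  have e0 := SpecRed.spec_rel 5 h5' 0 (famCurve c4 c6) V hW0 hV
    (fun i => secX (C (w i)) (C (b i)) X) (fun i => secY (C (w i)) (C (b i)) X) hS hs0 htors u
  have es := SpecRed.spec_rel 5 h5' s (famCurve c4 c6) V' hWs hV'
    (fun i => secX (C (w i)) (C (b i)) X) (fun i => secY (C (w i)) (C (b i)) X) hS hss htors u
  have c0 : ∀ i, Affine.Point.some _ _ (hs0 i) = Affine.Point.some _ _ (hP i) :=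
    fun i => some_congr (eval_secX _ _ _) (eval_secY _ _ _) _ _
  have cs : ∀ i, Affine.Point.some _ _ (hss i) = Affine.Point.some _ _ (hP' i) :=
    fun i => some_congr (eval_secX _ _ _) (eval_secY _ _ _) _ _
  have hgenrel := e0.mpr (by simpa only [c0] using hrel)
  have hfin := es.mp hgenrel
  simpa only [cs] using hfin

end Generic

section Export

/-- Discriminant of a short curve `y² = x³ - 27 c4 x - 54 c6`. -/
theorem short_Δ {F : Type*} [CommRing F] (V : WeierstrassCurve F)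
    (ha₁ : V.a₁ = 0) (ha₂ : V.a₂ = 0) (ha₃ : V.a₃ = 0) (c4 c6 : F)
    (ha₄ : V.a₄ = -27 * c4) (ha₆ : V.a₆ = -54 * c6) :
    V.Δ = 1259712 * (c4 ^ 3 - c6 ^ 2) := by
  simp only [WeierstrassCurve.Δ, WeierstrassCurve.b₂, WeierstrassCurve.b₄, WeierstrassCurve.b₆,
    WeierstrassCurve.b₈, ha₁, ha₂, ha₃, ha₄, ha₆]
  ring

theorem short_Δ_ne_zero {F : Type*} [Field F] (h2 : (2 : F) ≠ 0) (h3 : (3 : F) ≠ 0)
    (V : WeierstrassCurve F)
    (ha₁ : V.a₁ = 0) (ha₂ : V.a₂ = 0) (ha₃ : V.a₃ = 0) (c4 c6 : F)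
    (ha₄ : V.a₄ = -27 * c4) (ha₆ : V.a₆ = -54 * c6) (hΔ : c4 ^ 3 ≠ c6 ^ 2) : V.Δ ≠ 0 := by
  rw [short_Δ V ha₁ ha₂ ha₃ c4 c6 ha₄ ha₆]
  have h : (1259712 : F) = 2 ^ 6 * 3 ^ 9 := by norm_num
  rw [h]
  exact mul_ne_zero (mul_ne_zero (pow_ne_zero _ h2) (pow_ne_zero _ h3)) (sub_ne_zero.mpr hΔ)

theorem natCast_ne_zero_of_prime_ne {ℓ : ℕ} [Fact ℓ.Prime] {K : Type*} [Field K]
    [Algebra (ZMod ℓ) K] (p : ℕ) (hp : p.Prime) (h : ℓ ≠ p) : ((p : ℕ) : K) ≠ 0 := by
  intro h0
  have h1 : ((p : ℕ) : ZMod ℓ) = 0 := by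
    apply (algebraMap (ZMod ℓ) K).injective
    rw [map_natCast, map_zero]; exact h0
  have h2 : ℓ ∣ p := (ZMod.natCast_eq_zero_iff p ℓ).mp h1
  exact h ((Nat.prime_dvd_prime_iff_eq Fact.out hp).mp h2)

/-- **Export of block [X5-Fl]** (with the two family identities `fam4_tate`, `fam6_tate` as the
hypotheses `hTK`, `hTR`, see `SectionB.TateId`): the relation transfer between the two fibres `T = 0` and
`T = s` of the family of curves with the same mod-`5` representation, over an algebraically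
closed field `K` of characteristic `ℓ ∉ {2, 3, 5}`, for an arbitrary `f : K →ₐ[ZMod ℓ] K`
(e.g. the Frobenius). -/
theorem rel_transfer_of (ℓ : ℕ) [Fact ℓ.Prime] (h2 : ℓ ≠ 2) (h3 : ℓ ≠ 3) (h5 : ℓ ≠ 5)
    (c4 c6 s : ZMod ℓ) (hΔ : c4 ^ 3 ≠ c6 ^ 2)
    (hΔ' : Tate.fam4 c4 c6 s ^ 3 ≠ Tate.fam6 c4 c6 s ^ 2)
    (K : Type*) [Field K] [Algebra (ZMod ℓ) K] [IsAlgClosed K] [DecidableEq K]
    (hTK : TateId K) (hTR : TateId (RatFunc K))
    (f : K →ₐ[ZMod ℓ] K) :
    ∃ (P : ((⟨0, 0, 0, -27 * c4, -54 * c6⟩ : WeierstrassCurve (ZMod ℓ)).toAffine⁄K).Point)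
      (P' : ((⟨0, 0, 0, -27 * Tate.fam4 c4 c6 s, -54 * Tate.fam6 c4 c6 s⟩ :
        WeierstrassCurve (ZMod ℓ)).toAffine⁄K).Point),
      P' ≠ 0 ∧ (5 : ℤ) • P' = 0 ∧ ∀ u v w : ℤ,
        u • Affine.Point.map f (Affine.Point.map f P) + v • Affine.Point.map f P + w • P = 0 →
        u • Affine.Point.map f (Affine.Point.map f P') + v • Affine.Point.map f P' + w • P' = 0 := by
  set a : ZMod ℓ →+* K := algebraMap (ZMod ℓ) K with ha
  have ainj : Function.Injective a := a.injective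
  have h2K : (2 : K) ≠ 0 := by
    exact_mod_cast natCast_ne_zero_of_prime_ne (ℓ := ℓ) (K := K) 2 Nat.prime_two h2
  have h3K : (3 : K) ≠ 0 := by
    exact_mod_cast natCast_ne_zero_of_prime_ne (ℓ := ℓ) (K := K) 3 Nat.prime_three h3
  have h5K : (5 : K) ≠ 0 := by
    exact_mod_cast natCast_ne_zero_of_prime_ne (ℓ := ℓ) (K := K) 5 Nat.prime_five h5
  have hΔK : a c4 ^ 3 ≠ a c6 ^ 2 := by
    intro h
    rw [← map_pow, ← map_pow] at h
    exact hΔ (ainj h)
  have hΔ'K : Tate.fam4 (a c4) (a c6) (a s) ^ 3 ≠ Tate.fam6 (a c4) (a c6) (a s) ^ 2 := by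
    intro h
    rw [← GlueArith.map_fam4, ← GlueArith.map_fam6, ← map_pow, ← map_pow] at h
    exact hΔ' (ainj h)
  obtain ⟨w, b, hw, -, -, h4, h6⟩ := Param.exists_tate_param h2K h3K h5K (a c4) (a c6) hΔK
  have h4' : w ^ 4 * Tate.c4T b = a c4 := by rw [← h4]; rfl
  have h6' : w ^ 6 * Tate.c6T b = a c6 := by rw [← h6]; unfold Tate.c6T; ring
  have hfix : ∀ z : ZMod ℓ, f (a z) = a z := f.commutes
  have step4 : ∀ w b : K, w ^ 4 * Tate.c4T b = a c4 → f w ^ 4 * Tate.c4T (f b) = a c4 := by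
    intro w b h
    have h' := congrArg f h
    rw [map_mul, map_pow, hfix] at h'
    rw [← h']
    congr 1
    exact (GlueArith.map_c4T (f : K →+* K) b).symm
  have step6 : ∀ w b : K, w ^ 6 * Tate.c6T b = a c6 → f w ^ 6 * Tate.c6T (f b) = a c6 := by
    intro w b h
    have h' := congrArg f h
    rw [map_mul, map_pow, hfix] at h'
    rw [← h']
    congr 1
    exact (GlueArith.map_c6T (f : K →+* K) b).symm
  have hfw : ∀ z : K, z ≠ 0 → f z ≠ 0 := fun z hz => (map_ne_zero f).mpr hz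
  -- the three parameters
  obtain ⟨wv, hwv⟩ : ∃ wv : Fin 3 → K, wv = ![f (f w), f w, w] := ⟨_, rfl⟩
  obtain ⟨bv, hbv⟩ : ∃ bv : Fin 3 → K, bv = ![f (f b), f b, b] := ⟨_, rfl⟩
  have hw0 : ∀ i, wv i ≠ 0 := by
    intro i; subst hwv
    fin_cases i
    · exact hfw _ (hfw _ hw)
    · exact hfw _ hw
    · exact hw
  have h4v : ∀ i, wv i ^ 4 * Tate.c4T (bv i) = a c4 := by
    intro i; subst hwv hbv
    fin_cases i
    · exact step4 _ _ (step4 _ _ h4')
    · exact step4 _ _ h4'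
    · exact h4'
  have h6v : ∀ i, wv i ^ 6 * Tate.c6T (bv i) = a c6 := by
    intro i; subst hwv hbv
    fin_cases i
    · exact step6 _ _ (step6 _ _ h6')
    · exact step6 _ _ h6'
    · exact h6'
  -- the two curves over `K`
  set V : WeierstrassCurve K :=
    ((⟨0, 0, 0, -27 * c4, -54 * c6⟩ : WeierstrassCurve (ZMod ℓ)).toAffine⁄K) with hVdef
  set V' : WeierstrassCurve K :=
    ((⟨0, 0, 0, -27 * Tate.fam4 c4 c6 s, -54 * Tate.fam6 c4 c6 s⟩ :
      WeierstrassCurve (ZMod ℓ)).toAffine⁄K) with hV'def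
  have e₁ : V.a₁ = 0 := map_zero a
  have e₂ : V.a₂ = 0 := map_zero a
  have e₃ : V.a₃ = 0 := map_zero a
  have e₄ : V.a₄ = -27 * a c4 := by
    show a (-27 * c4) = -27 * a c4
    rw [map_mul, map_neg, map_ofNat]
  have e₆ : V.a₆ = -54 * a c6 := by
    show a (-54 * c6) = -54 * a c6
    rw [map_mul, map_neg, map_ofNat]
  have e₁' : V'.a₁ = 0 := map_zero a
  have e₂' : V'.a₂ = 0 := map_zero a
  have e₃' : V'.a₃ = 0 := map_zero a
  have e₄' : V'.a₄ = -27 * Tate.fam4 (a c4) (a c6) (a s) := by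
    show a (-27 * Tate.fam4 c4 c6 s) = -27 * Tate.fam4 (a c4) (a c6) (a s)
    rw [map_mul, map_neg, map_ofNat, GlueArith.map_fam4]
  have e₆' : V'.a₆ = -54 * Tate.fam6 (a c4) (a c6) (a s) := by
    show a (-54 * Tate.fam6 c4 c6 s) = -54 * Tate.fam6 (a c4) (a c6) (a s)
    rw [map_mul, map_neg, map_ofNat, GlueArith.map_fam6]
  have hVΔ : V.Δ ≠ 0 := short_Δ_ne_zero h2K h3K V e₁ e₂ e₃ (a c4) (a c6) e₄ e₆ hΔK
  have hV'Δ : V'.Δ ≠ 0 := short_Δ_ne_zero h2K h3K V' e₁' e₂' e₃' _ _ e₄' e₆' hΔ'K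
  -- the points
  have hPex := fun i => section_pt_of hTK V h2K h3K (a c4) (a c6) (wv i) (bv i) 0 (hw0 i) (h4v i) (h6v i)
    e₁ e₂ e₃ (by rw [e₄, GlueArith.fam4_zero]) (by rw [e₆, GlueArith.fam6_zero])
    (by rw [GlueArith.fam4_zero, GlueArith.fam6_zero]; exact hΔK)
  have hP'ex := fun i => section_pt_of hTK V' h2K h3K (a c4) (a c6) (wv i) (bv i) (a s) (hw0 i) (h4v i)
    (h6v i) e₁' e₂' e₃' e₄' e₆' hΔ'K
  have hP : ∀ i, V.toAffine.Nonsingular (secX (wv i) (bv i) 0) (secY (wv i) (bv i) 0) :=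
    fun i => (hPex i).choose
  have hP' : ∀ i, V'.toAffine.Nonsingular (secX (wv i) (bv i) (a s)) (secY (wv i) (bv i) (a s)) :=
    fun i => (hP'ex i).choose
  have h5P' : (5 : ℤ) • Affine.Point.some _ _ (hP' 2) = 0 := (hP'ex 2).choose_spec
  -- the action of `f` on the sections
  have fX : ∀ (w b t : K), f (secX w b t) = secX (f w) (f b) (f t) :=
    fun w b t => map_secX (f : K →+* K) w b t
  have fY : ∀ (w b t : K), f (secY w b t) = secY (f w) (f b) (f t) :=
    fun w b t => map_secY (f : K →+* K) w b t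
  have w21 : f (wv 2) = wv 1 := by subst hwv; rfl
  have w10 : f (wv 1) = wv 0 := by subst hwv; rfl
  have b21 : f (bv 2) = bv 1 := by subst hbv; rfl
  have b10 : f (bv 1) = bv 0 := by subst hbv; rfl
  have m21 : Affine.Point.map f (Affine.Point.some _ _ (hP 2)) = Affine.Point.some _ _ (hP 1) := by
    rw [Affine.Point.map_some]
    exact some_congr (by rw [fX, w21, b21, map_zero]) (by rw [fY, w21, b21, map_zero]) _ _
  have m10 : Affine.Point.map f (Affine.Point.some _ _ (hP 1)) = Affine.Point.some _ _ (hP 0) := by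
    rw [Affine.Point.map_some]
    exact some_congr (by rw [fX, w10, b10, map_zero]) (by rw [fY, w10, b10, map_zero]) _ _
  have m21' : Affine.Point.map f (Affine.Point.some _ _ (hP' 2)) =
      Affine.Point.some _ _ (hP' 1) := by
    rw [Affine.Point.map_some]
    exact some_congr (by rw [fX, w21, b21, hfix]) (by rw [fY, w21, b21, hfix]) _ _
  have m10' : Affine.Point.map f (Affine.Point.some _ _ (hP' 1)) =
      Affine.Point.some _ _ (hP' 0) := by
    rw [Affine.Point.map_some]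
    exact some_congr (by rw [fX, w10, b10, hfix]) (by rw [fY, w10, b10, hfix]) _ _
  refine ⟨Affine.Point.some _ _ (hP 2), Affine.Point.some _ _ (hP' 2),
    Affine.Point.some_ne_zero _, h5P', ?_⟩
  intro u v w' hrel
  rw [m21, m10] at hrel
  rw [m21', m10']
  have key := rel_of_rel hTR h2K h3K h5K (a c4) (a c6) (a s) hΔK V V' e₁ e₂ e₃ e₄ e₆ e₁' e₂' e₃' e₄' e₆'
    hVΔ hV'Δ wv bv hw0 h4v h6v hP hP' ![u, v, w']
    (by simpa [Fin.sum_univ_three] using hrel)
  simpa [Fin.sum_univ_three] using key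

end Export

end Fermat.Agent.S52.X5Fl
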