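/-
S52, block [X5-Fl] (owner: helper44).  The export of the block in the exact shape `GlueX.X5Export`
consumed by the final glue, from the two family identities `fam4_tate`, `fam6_tate`
(hypothesis `SectionB.TateId`, over all commutative rings in `Type`).
-/
import Fermat.Agent.S52.GlueX
import Fermat.Agent.S52.X5Fl.Main

set_option autoImplicit false

namespace Fermat.Agent.S52.X5Fl

open Fermat.Agent.S52

/-- `GlueX.X5Export` holds as soon as the two Tate-chart identities of the family hold. -/
theorem x5Export_of (hT : ∀ (R : Type) [CommRing R], SectionB.TateId R) : GlueX.X5Export := by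
  intro ℓ _ hℓ _ c4 c6 t hΔ hΔ'
  exact rel_transfer_of ℓ (by omega) (by omega) (by omega) c4 c6 t hΔ hΔ'
    (AlgebraicClosure (ZMod ℓ)) (hT _) (hT _)
    (FiniteField.frobeniusAlgHom (ZMod ℓ) (AlgebraicClosure (ZMod ℓ)))

end Fermat.Agent.S52.X5Fl
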