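import Mathlib
import Fermat.Agent.S52.SpecRed
import Fermat.Agent.S52.X5Fl.Tate
import Fermat.Agent.S52.TateParamB

/-!
# S52 / [X5Fl] step (4), B-route: assembly of the relation transport

Family-independent core.  The family enters through two polynomials `F4 F6 : (ZMod ℓ)[X]`
(the invariants `c₄`, `c₆` of the member with parameter `X`), and through a "Tate chart":
for every Tate parameter `(w, d)` of the base curve, polynomials `Nf w d`, `Df w d : K[X]`
such that `F4 = w⁴ · c4F N D`, `F6 = w⁶ · c6F N D` over `K[X]`, compatible with ring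
endomorphisms of `K`.

Output (`transport`): a point `P` of the short model of the base curve and a point `P'` of
exact order five of the short model of the member with parameter `s`, both over an
algebraically closed field `K ⊇ ZMod ℓ`, such that every `ℤ`-linear relation among
`φ² P, φ P, P` also holds among `φ² P', φ P', P'` (`φ` = Frobenius).
-/

set_option autoImplicit false

open WeierstrassCurve WeierstrassCurve.Affine Polynomial
open scoped WeierstrassCurve.Affine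

namespace Fermat.Agent.S52.X5Fl.AsmB

section Forms

variable {R : Type*} [CommRing R]

/-- The homogeneous `c₄`-form of the Tate normal form. -/
def c4F (n m : R) : R := n^4 - 12*n^3*m + 14*n^2*m^2 + 12*n*m^3 + m^4

/-- The homogeneous `c₆`-form of the Tate normal form. -/
def c6F (n m : R) : R := -(n^6 - 18*n^5*m + 75*n^4*m^2 + 75*n^2*m^4 + 18*n*m^5 + m^6)

theorem c4F_cube_sub_c6F_sq (n m : R) :
    c4F n m ^ 3 - c6F n m ^ 2 = 1728 * n ^ 5 * m ^ 5 * (n ^ 2 - 11 * n * m - m ^ 2) := by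
  unfold c4F c6F; ring

theorem map_c4F {S : Type*} [CommRing S] (f : R →+* S) (n m : R) :
    f (c4F n m) = c4F (f n) (f m) := by
  simp only [c4F, map_add, map_sub, map_mul, map_pow, map_ofNat]

theorem map_c6F {S : Type*} [CommRing S] (f : R →+* S) (n m : R) :
    f (c6F n m) = c6F (f n) (f m) := by
  simp only [c6F, map_add, map_neg, map_sub, map_mul, map_pow, map_ofNat]

/-- The discriminant of the literal short curve `⟨0,0,0,-27 c4,-54 c6⟩`. -/
theorem short_disc (c4 c6 : R) :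
    (⟨0, 0, 0, -27 * c4, -54 * c6⟩ : WeierstrassCurve R).Δ = 1259712 * (c4 ^ 3 - c6 ^ 2) := by
  simp only [WeierstrassCurve.Δ, WeierstrassCurve.b₂, WeierstrassCurve.b₄, WeierstrassCurve.b₆,
    WeierstrassCurve.b₈]
  ring

end Forms

section Section

/-- **The Tate section.**  On a short Weierstrass curve whose invariants are
`(w⁴ · c4F N D, w⁶ · c6F N D)` the point `(3 w² (N² - 6 N D + D²), -108 w³ N D²)` is
nonsingular and killed by `5`. -/
theorem section_pt {F : Type*} [Field F] [DecidableEq F] (V : WeierstrassCurve F)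
    (h2 : (2 : F) ≠ 0) (h3 : (3 : F) ≠ 0) (w N D : F) (hw : w ≠ 0)
    (ha₁ : V.a₁ = 0) (ha₂ : V.a₂ = 0) (ha₃ : V.a₃ = 0)
    (ha₄ : V.a₄ = -27 * (w ^ 4 * c4F N D)) (ha₆ : V.a₆ = -54 * (w ^ 6 * c6F N D))
    (hΔ : V.Δ ≠ 0) :
    ∃ h : V.toAffine.Nonsingular (3 * w ^ 2 * (N ^ 2 - 6 * N * D + D ^ 2))
        (-(108 * w ^ 3 * N * D ^ 2)),
      (5 : ℤ) • (Point.some _ _ h) = 0 := by
  have hΔ' : V.Δ = 1259712 * w ^ 12 * (1728 * N ^ 5 * D ^ 5 * (N ^ 2 - 11 * N * D - D ^ 2)) := by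
    have e : V = ⟨0, 0, 0, -27 * (w ^ 4 * c4F N D), -54 * (w ^ 6 * c6F N D)⟩ := by
      ext <;> simp [ha₁, ha₂, ha₃, ha₄, ha₆]
    rw [e, short_disc, ← c4F_cube_sub_c6F_sq]
    ring
  have hN : N ≠ 0 := by
    rintro rfl
    apply hΔ; rw [hΔ']; ring
  have hD : D ≠ 0 := by
    rintro rfl
    apply hΔ; rw [hΔ']; ring
  have h6w : 6 * w ≠ 0 := by
    have h6 : (6 : F) ≠ 0 := by
      have : (6 : F) = 2 * 3 := by norm_num
      rw [this]; exact mul_ne_zero h2 h3
    exact mul_ne_zero h6 hw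
  refine Fermat.Agent.S52.X5Fl.Tate.tate_five_torsion V h2 h3 (6 * w) N D _ _ h6w hN hD hΔ ?_ ?_ ?_ ?_
  · simp only [WeierstrassCurve.c₄, WeierstrassCurve.b₂, WeierstrassCurve.b₄, ha₁, ha₂, ha₃, ha₄,
      c4F]
    ring
  · simp only [WeierstrassCurve.c₆, WeierstrassCurve.b₂, WeierstrassCurve.b₄,
      WeierstrassCurve.b₆, ha₁, ha₂, ha₃, ha₄, ha₆, c6F]
    ring
  · simp only [WeierstrassCurve.b₂, ha₁, ha₂]
    ring
  · simp only [ha₁, ha₃]
    ring

end Section

section Core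

variable {K : Type*} [Field K]

/-- The `x`-coordinate of the Tate section, as a polynomial in the family parameter. -/
noncomputable def secX (w : K) (N D : K[X]) : K[X] :=
  3 * C w ^ 2 * (N ^ 2 - 6 * N * D + D ^ 2)

/-- The `y`-coordinate of the Tate section, as a polynomial in the family parameter. -/
noncomputable def secY (w : K) (N D : K[X]) : K[X] :=
  -(108 * C w ^ 3 * N * D ^ 2)

theorem secX_eval (w : K) (N D : K[X]) (t : K) :
    (secX w N D).eval t
      = 3 * w ^ 2 * (N.eval t ^ 2 - 6 * N.eval t * D.eval t + D.eval t ^ 2) := by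
  simp only [secX, eval_mul, eval_pow, eval_sub, eval_add, eval_C, eval_ofNat]

theorem secY_eval (w : K) (N D : K[X]) (t : K) :
    (secY w N D).eval t = -(108 * w ^ 3 * N.eval t * D.eval t ^ 2) := by
  simp only [secY, eval_neg, eval_mul, eval_pow, eval_C, eval_ofNat]

theorem secX_map (f : K →+* K) (w : K) (N D : K[X]) :
    (secX w N D).map f = secX (f w) (N.map f) (D.map f) := by
  simp only [secX, Polynomial.map_mul, Polynomial.map_pow, Polynomial.map_sub,
    Polynomial.map_add, Polynomial.map_C, Polynomial.map_ofNat]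

theorem secY_map (f : K →+* K) (w : K) (N D : K[X]) :
    (secY w N D).map f = secY (f w) (N.map f) (D.map f) := by
  simp only [secY, Polynomial.map_neg, Polynomial.map_mul, Polynomial.map_pow,
    Polynomial.map_C, Polynomial.map_ofNat]

/-- The generic short curve with invariants `(G4, G6)` over `K[X]`. -/
noncomputable def genW (G4 G6 : K[X]) : WeierstrassCurve K[X] := ⟨0, 0, 0, -27 * G4, -54 * G6⟩

theorem c1259712_ne_zero {F : Type*} [Field F] (h2 : (2 : F) ≠ 0) (h3 : (3 : F) ≠ 0) :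
    (1259712 : F) ≠ 0 := by
  have : (1259712 : F) = 2 ^ 6 * 3 ^ 9 := by norm_num
  rw [this]
  exact mul_ne_zero (pow_ne_zero _ h2) (pow_ne_zero _ h3)

/-- The Tate section of the generic curve is a point of order dividing five over `K(X)`. -/
theorem gen_section [DecidableEq (RatFunc K)] (h2 : (2 : K) ≠ 0) (h3 : (3 : K) ≠ 0)
    (G4 G6 : K[X]) (hG : G4 ^ 3 - G6 ^ 2 ≠ 0) (w : K) (hw : w ≠ 0) (N D : K[X])
    (h4 : G4 = C (w ^ 4) * c4F N D) (h6 : G6 = C (w ^ 6) * c6F N D) :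
    ∃ h : ((genW G4 G6).map (algebraMap K[X] (RatFunc K))).toAffine.Nonsingular
        (algebraMap K[X] (RatFunc K) (secX w N D)) (algebraMap K[X] (RatFunc K) (secY w N D)),
      (5 : ℤ) • (Point.some _ _ h) = 0 := by
  have hinj : Function.Injective (algebraMap K[X] (RatFunc K)) := RatFunc.algebraMap_injective K
  have hKinj : Function.Injective (algebraMap K (RatFunc K)) := (algebraMap K (RatFunc K)).injective
  have ex : algebraMap K[X] (RatFunc K) (secX w N D)
      = 3 * (algebraMap K[X] (RatFunc K) (C w)) ^ 2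
        * ((algebraMap K[X] (RatFunc K) N) ^ 2
          - 6 * algebraMap K[X] (RatFunc K) N * algebraMap K[X] (RatFunc K) D
          + (algebraMap K[X] (RatFunc K) D) ^ 2) := by
    simp only [secX, map_mul, map_pow, map_sub, map_add, map_ofNat]
  have ey : algebraMap K[X] (RatFunc K) (secY w N D)
      = -(108 * (algebraMap K[X] (RatFunc K) (C w)) ^ 3 * algebraMap K[X] (RatFunc K) N
          * (algebraMap K[X] (RatFunc K) D) ^ 2) := by
    simp only [secY, map_neg, map_mul, map_pow, map_ofNat]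
  rw [ex, ey]
  have h2' : (2 : RatFunc K) ≠ 0 := by
    have : (2 : RatFunc K) = algebraMap K (RatFunc K) 2 := (map_ofNat _ 2).symm
    rw [this]; exact (_root_.map_ne_zero _).mpr h2
  have h3' : (3 : RatFunc K) ≠ 0 := by
    have : (3 : RatFunc K) = algebraMap K (RatFunc K) 3 := (map_ofNat _ 3).symm
    rw [this]; exact (_root_.map_ne_zero _).mpr h3
  refine section_pt _ h2' h3' (algebraMap K[X] (RatFunc K) (C w)) (algebraMap K[X] (RatFunc K) N)
    (algebraMap K[X] (RatFunc K) D) ?_ ?_ ?_ ?_ ?_ ?_ ?_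
  · rw [Ne, map_eq_zero_iff _ hinj, C_eq_zero]; exact hw
  · simp [genW]
  · simp [genW]
  · simp [genW]
  · simp only [genW, WeierstrassCurve.map_a₄, h4, map_mul, map_neg, map_ofNat, map_c4F, map_pow]
  · simp only [genW, WeierstrassCurve.map_a₆, h6, map_mul, map_neg, map_ofNat, map_c6F, map_pow]
  · rw [WeierstrassCurve.map_Δ, Ne, map_eq_zero_iff _ hinj]
    show (genW G4 G6).Δ ≠ 0
    rw [genW, short_disc]
    refine mul_ne_zero ?_ hG
    have : (1259712 : K[X]) = C (1259712 : K) := (map_ofNat C 1259712).symm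
    rw [this, Ne, C_eq_zero]
    exact c1259712_ne_zero h2 h3

/-- The specialisation of the Tate section at a parameter value where the member is
nonsingular is a point of order dividing five. -/
theorem spec_section [DecidableEq K] (h2 : (2 : K) ≠ 0) (h3 : (3 : K) ≠ 0)
    (V : WeierstrassCurve K) (G4 G6 : K[X]) (t : K)
    (ha₁ : V.a₁ = 0) (ha₂ : V.a₂ = 0) (ha₃ : V.a₃ = 0)
    (ha₄ : V.a₄ = -27 * G4.eval t) (ha₆ : V.a₆ = -54 * G6.eval t) (hΔ : V.Δ ≠ 0)
    (w : K) (hw : w ≠ 0) (N D : K[X])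
    (h4 : G4 = C (w ^ 4) * c4F N D) (h6 : G6 = C (w ^ 6) * c6F N D) :
    ∃ h : V.toAffine.Nonsingular ((secX w N D).eval t) ((secY w N D).eval t),
      (5 : ℤ) • (Point.some _ _ h) = 0 := by
  rw [secX_eval, secY_eval]
  refine section_pt V h2 h3 w (N.eval t) (D.eval t) hw ha₁ ha₂ ha₃ ?_ ?_ hΔ
  · rw [ha₄, h4, eval_mul, eval_C, ← coe_evalRingHom, map_c4F]
  · rw [ha₆, h6, eval_mul, eval_C, ← coe_evalRingHom, map_c6F]

end Core

section Transport

variable (ℓ : ℕ) [Fact ℓ.Prime] (K : Type*) [Field K] [DecidableEq K] [Algebra (ZMod ℓ) K]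

omit [DecidableEq K] in
theorem some_congr' {V : WeierstrassCurve K} {x x' y y' : K} (hx : x = x') (hy : y = y')
    (h : V.toAffine.Nonsingular x y) (h' : V.toAffine.Nonsingular x' y') :
    (Point.some x y h : V.toAffine.Point) = Point.some x' y' h' := by
  subst hx hy; rfl

/-- For a Tate parameter `(w, d)` of the base curve: three sections `S 0, S 1, S 2` of the
generic curve over `K(X)` (attached to `(w, d)` and its two Frobenius conjugates) such that
on every nonsingular fibre over a point `r` of the prime field there are points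
`Q 0, Q 1 = φ (Q 0), Q 2 = φ (Q 1)`, `Q 0` of exact order five, satisfying the same
`ℤ`-linear relations as `S 0, S 1, S 2`. -/
theorem exists_sections [DecidableEq (RatFunc K)]
    (h2 : (2 : K) ≠ 0) (h3 : (3 : K) ≠ 0) (h5 : (5 : K) ≠ 0)
    (F4 F6 : (ZMod ℓ)[X])
    (h0 : (F4.eval 0) ^ 3 ≠ (F6.eval 0) ^ 2)
    (Nf Df : K → K → K[X])
    (hNf : ∀ (f : K →+* K) (w d : K), (Nf w d).map f = Nf (f w) (f d))
    (hDf : ∀ (f : K →+* K) (w d : K), (Df w d).map f = Df (f w) (f d))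
    (hchart : ∀ w d : K, w ≠ 0 → d ≠ 0 → d ^ 2 - 11 * d - 1 ≠ 0 →
      algebraMap (ZMod ℓ) K (F4.eval 0) = w ^ 4 * (d^4 - 12*d^3 + 14*d^2 + 12*d + 1) →
      algebraMap (ZMod ℓ) K (F6.eval 0)
        = w ^ 6 * (-(d^6 - 18*d^5 + 75*d^4 + 75*d^2 + 18*d + 1)) →
      F4.map (algebraMap (ZMod ℓ) K) = C (w ^ 4) * c4F (Nf w d) (Df w d) ∧
      F6.map (algebraMap (ZMod ℓ) K) = C (w ^ 6) * c6F (Nf w d) (Df w d))
    (w d : K) (hw : w ≠ 0) (hd : d ≠ 0) (hq : d ^ 2 - 11 * d - 1 ≠ 0)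
    (hc4 : algebraMap (ZMod ℓ) K (F4.eval 0) = w ^ 4 * (d^4 - 12*d^3 + 14*d^2 + 12*d + 1))
    (hc6 : algebraMap (ZMod ℓ) K (F6.eval 0)
        = w ^ 6 * (-(d^6 - 18*d^5 + 75*d^4 + 75*d^2 + 18*d + 1))) :
    ∃ S : Fin 3 → ((genW (F4.map (algebraMap (ZMod ℓ) K)) (F6.map (algebraMap (ZMod ℓ) K))).map
        (algebraMap K[X] (RatFunc K))).toAffine.Point,
      ∀ r c4 c6 : ZMod ℓ, F4.eval r = c4 → F6.eval r = c6 → c4 ^ 3 ≠ c6 ^ 2 →
        ∃ Q : Fin 3 →
            ((⟨0, 0, 0, -27 * c4, -54 * c6⟩ : WeierstrassCurve (ZMod ℓ)).toAffine⁄K).Point,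
          Q 0 ≠ 0 ∧ (5 : ℤ) • Q 0 = 0 ∧
          Point.map (W' := (⟨0, 0, 0, -27 * c4, -54 * c6⟩ : WeierstrassCurve (ZMod ℓ)).toAffine)
            (FiniteField.frobeniusAlgHom (ZMod ℓ) K) (Q 0) = Q 1 ∧
          Point.map (W' := (⟨0, 0, 0, -27 * c4, -54 * c6⟩ : WeierstrassCurve (ZMod ℓ)).toAffine)
            (FiniteField.frobeniusAlgHom (ZMod ℓ) K) (Q 1) = Q 2 ∧
          ∀ u : Fin 3 → ℤ, (∑ i, u i • Q i = 0) ↔ (∑ i, u i • S i = 0) := by
  -- notation
  set G4 : K[X] := F4.map (algebraMap (ZMod ℓ) K) with hG4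
  set G6 : K[X] := F6.map (algebraMap (ZMod ℓ) K) with hG6
  set fr : K →ₐ[ZMod ℓ] K := FiniteField.frobeniusAlgHom (ZMod ℓ) K with hfr
  have hinjK : Function.Injective (algebraMap (ZMod ℓ) K) := (algebraMap (ZMod ℓ) K).injective
  -- evaluation of `G4`, `G6` at points of the prime field
  have hG4e : ∀ r : ZMod ℓ, G4.eval (algebraMap (ZMod ℓ) K r) = algebraMap (ZMod ℓ) K (F4.eval r) := by
    intro r; rw [hG4, eval_map, eval₂_at_apply]
  have hG6e : ∀ r : ZMod ℓ, G6.eval (algebraMap (ZMod ℓ) K r) = algebraMap (ZMod ℓ) K (F6.eval r) := by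
    intro r; rw [hG6, eval_map, eval₂_at_apply]
  -- the generic curve is nonsingular
  have hG : G4 ^ 3 - G6 ^ 2 ≠ 0 := by
    intro h
    have h' := congrArg (Polynomial.eval (algebraMap (ZMod ℓ) K 0)) h
    rw [eval_sub, eval_pow, eval_pow, hG4e, hG6e, eval_zero, ← map_pow, ← map_pow, ← map_sub,
      map_eq_zero_iff _ hinjK, sub_eq_zero] at h'
    exact h0 h'
  -- the Frobenius conjugates of the parameter
  let pw : ℕ → K := fun n => (⇑fr)^[n] w
  let pd : ℕ → K := fun n => (⇑fr)^[n] d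
  have pw_succ : ∀ n, pw (n + 1) = fr (pw n) := fun n => Function.iterate_succ_apply' _ _ _
  have pd_succ : ∀ n, pd (n + 1) = fr (pd n) := fun n => Function.iterate_succ_apply' _ _ _
  have hpar : ∀ n, pw n ≠ 0 ∧ pd n ≠ 0 ∧ pd n ^ 2 - 11 * pd n - 1 ≠ 0 ∧
      algebraMap (ZMod ℓ) K (F4.eval 0)
        = pw n ^ 4 * (pd n ^ 4 - 12 * pd n ^ 3 + 14 * pd n ^ 2 + 12 * pd n + 1) ∧
      algebraMap (ZMod ℓ) K (F6.eval 0)
        = pw n ^ 6 * (-(pd n ^ 6 - 18 * pd n ^ 5 + 75 * pd n ^ 4 + 75 * pd n ^ 2 + 18 * pd n + 1)) := by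
    intro n
    induction n with
    | zero => exact ⟨hw, hd, hq, hc4, hc6⟩
    | succ n ih =>
      obtain ⟨i1, i2, i3, i4, i6⟩ := ih
      rw [pw_succ, pd_succ]
      refine ⟨(_root_.map_ne_zero fr).mpr i1, (_root_.map_ne_zero fr).mpr i2, ?_, ?_, ?_⟩
      · have := (_root_.map_ne_zero fr).mpr i3
        simpa only [map_sub, map_mul, map_pow, map_one, map_ofNat] using this
      · have := congrArg fr i4
        rw [AlgHom.commutes] at this
        simpa only [map_add, map_sub, map_mul, map_pow, map_one, map_ofNat] using this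
      · have := congrArg fr i6
        rw [AlgHom.commutes] at this
        simpa only [map_neg, map_add, map_sub, map_mul, map_pow, map_one, map_ofNat] using this
  -- the chart for each conjugate
  have hch : ∀ n, G4 = C (pw n ^ 4) * c4F (Nf (pw n) (pd n)) (Df (pw n) (pd n)) ∧
      G6 = C (pw n ^ 6) * c6F (Nf (pw n) (pd n)) (Df (pw n) (pd n)) := fun n =>
    hchart (pw n) (pd n) (hpar n).1 (hpar n).2.1 (hpar n).2.2.1 (hpar n).2.2.2.1 (hpar n).2.2.2.2
  -- the sections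
  let x : Fin 3 → K[X] := fun i => secX (pw i) (Nf (pw i) (pd i)) (Df (pw i) (pd i))
  let y : Fin 3 → K[X] := fun i => secY (pw i) (Nf (pw i) (pd i)) (Df (pw i) (pd i))
  have hgen : ∀ i : Fin 3, ∃ h : ((genW G4 G6).map (algebraMap K[X] (RatFunc K))).toAffine.Nonsingular
        (algebraMap K[X] (RatFunc K) (x i)) (algebraMap K[X] (RatFunc K) (y i)),
      (5 : ℤ) • (Point.some _ _ h) = 0 := fun i =>
    gen_section h2 h3 G4 G6 hG (pw i) (hpar i).1 _ _ (hch i).1 (hch i).2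
  -- Frobenius on the specialised coordinates
  have hfrx : ∀ (n : ℕ) (r : ZMod ℓ),
      fr ((secX (pw n) (Nf (pw n) (pd n)) (Df (pw n) (pd n))).eval (algebraMap (ZMod ℓ) K r))
        = (secX (pw (n + 1)) (Nf (pw (n + 1)) (pd (n + 1))) (Df (pw (n + 1)) (pd (n + 1)))).eval
            (algebraMap (ZMod ℓ) K r) := by
    intro n r
    have e : ∀ p : K[X], fr (p.eval (algebraMap (ZMod ℓ) K r))
        = (p.map (fr : K →+* K)).eval (algebraMap (ZMod ℓ) K r) := by
      intro p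
      conv_rhs => rw [← AlgHom.commutes fr r]
      rw [eval_map]
      exact (eval₂_at_apply (fr : K →+* K) _).symm
    rw [e, secX_map, hNf, hDf, pw_succ, pd_succ]
    rfl
  have hfry : ∀ (n : ℕ) (r : ZMod ℓ),
      fr ((secY (pw n) (Nf (pw n) (pd n)) (Df (pw n) (pd n))).eval (algebraMap (ZMod ℓ) K r))
        = (secY (pw (n + 1)) (Nf (pw (n + 1)) (pd (n + 1))) (Df (pw (n + 1)) (pd (n + 1)))).eval
            (algebraMap (ZMod ℓ) K r) := by
    intro n r
    have e : ∀ p : K[X], fr (p.eval (algebraMap (ZMod ℓ) K r))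
        = (p.map (fr : K →+* K)).eval (algebraMap (ZMod ℓ) K r) := by
      intro p
      conv_rhs => rw [← AlgHom.commutes fr r]
      rw [eval_map]
      exact (eval₂_at_apply (fr : K →+* K) _).symm
    rw [e, secY_map, hNf, hDf, pw_succ, pd_succ]
    rfl
  refine ⟨fun i => Point.some _ _ (hgen i).choose, ?_⟩
  intro r c4 c6 hr4 hr6 hr
  subst hr4 hr6
  -- the fibre
  have hW0 : (genW G4 G6).map (Polynomial.evalRingHom (algebraMap (ZMod ℓ) K r))
      = ((⟨0, 0, 0, -27 * F4.eval r, -54 * F6.eval r⟩ : WeierstrassCurve (ZMod ℓ)).toAffine⁄K) := by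
    ext
    · simp [genW, WeierstrassCurve.baseChange]
    · simp [genW, WeierstrassCurve.baseChange]
    · simp [genW, WeierstrassCurve.baseChange]
    · show Polynomial.evalRingHom (algebraMap (ZMod ℓ) K r) (-27 * G4)
        = algebraMap (ZMod ℓ) K (-27 * F4.eval r)
      simp only [map_mul, map_neg, map_ofNat, coe_evalRingHom, hG4e]
    · show Polynomial.evalRingHom (algebraMap (ZMod ℓ) K r) (-54 * G6)
        = algebraMap (ZMod ℓ) K (-54 * F6.eval r)
      simp only [map_mul, map_neg, map_ofNat, coe_evalRingHom, hG6e]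
  have hΔ0 : ((⟨0, 0, 0, -27 * F4.eval r, -54 * F6.eval r⟩ :
      WeierstrassCurve (ZMod ℓ)).toAffine⁄K).Δ ≠ 0 := by
    have e : ((⟨0, 0, 0, -27 * F4.eval r, -54 * F6.eval r⟩ :
        WeierstrassCurve (ZMod ℓ)).toAffine⁄K).Δ
        = algebraMap (ZMod ℓ) K (1259712 * ((F4.eval r) ^ 3 - (F6.eval r) ^ 2)) := by
      rw [← short_disc]
      exact WeierstrassCurve.map_Δ _ _
    rw [e, Ne, map_eq_zero_iff _ hinjK]
    refine mul_ne_zero ?_ (sub_ne_zero.mpr hr)
    intro h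
    have h' := congrArg (algebraMap (ZMod ℓ) K) h
    rw [map_ofNat, map_zero] at h'
    exact c1259712_ne_zero h2 h3 h'
  have hsp : ∀ i : Fin 3, ∃ h : ((⟨0, 0, 0, -27 * F4.eval r, -54 * F6.eval r⟩ :
        WeierstrassCurve (ZMod ℓ)).toAffine⁄K).toAffine.Nonsingular
        ((x i).eval (algebraMap (ZMod ℓ) K r)) ((y i).eval (algebraMap (ZMod ℓ) K r)),
      (5 : ℤ) • (Point.some _ _ h) = 0 := fun i =>
    spec_section h2 h3 _ G4 G6 (algebraMap (ZMod ℓ) K r)
      ((congrArg WeierstrassCurve.a₁ hW0).symm.trans (by simp [genW]))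
      ((congrArg WeierstrassCurve.a₂ hW0).symm.trans (by simp [genW]))
      ((congrArg WeierstrassCurve.a₃ hW0).symm.trans (by simp [genW]))
      ((congrArg WeierstrassCurve.a₄ hW0).symm.trans (by simp [genW]))
      ((congrArg WeierstrassCurve.a₆ hW0).symm.trans (by simp [genW]))
      hΔ0 (pw i) (hpar i).1 _ _ (hch i).1 (hch i).2
  have h5' : ((5 : ℕ) : K) ≠ 0 := by simpa using h5
  refine ⟨fun i => Point.some _ _ (hsp i).choose, Point.some_ne_zero _, (hsp 0).choose_spec,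
    ?_, ?_, ?_⟩
  · rw [Point.map_some]
    exact some_congr' K (hfrx 0 r) (hfry 0 r) _ _
  · rw [Point.map_some]
    exact some_congr' K (hfrx 1 r) (hfry 1 r) _ _
  · intro u
    have htors : ∀ i, ((5 : ℕ) : ℤ) • (Point.some _ _ (hgen i).choose) = 0 := fun i => by
      simpa using (hgen i).choose_spec
    exact (Fermat.Agent.S52.SpecRed.spec_rel 5 h5' (algebraMap (ZMod ℓ) K r) (genW G4 G6) _ hW0
      hΔ0 x y (fun i => (hgen i).choose) (fun i => (hsp i).choose) htors u).symm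

omit [Fact ℓ.Prime] [DecidableEq K] [Algebra (ZMod ℓ) K] [Field K] in
theorem sum_three {A : Type*} [AddCommGroup A] (T : Fin 3 → A) (u v w : ℤ) :
    ∑ i, ![w, v, u] i • T i = u • T 2 + v • T 1 + w • T 0 := by
  rw [Fin.sum_univ_three]
  simp only [Matrix.cons_val_zero, Matrix.cons_val_one, Matrix.cons_val_two, Matrix.head_cons,
    Matrix.tail_cons]
  abel

/-- **[X5Fl] export, family-abstract form.**  `K` algebraically closed over `ZMod ℓ` with
`2, 3, 5 ≠ 0`; `F4, F6` the invariants of the family, with base curve `(c4, c6)` at parameter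
`0` and member `(c4', c6')` at parameter `s`, both nonsingular; `Nf, Df` a Tate chart of the
family.  Then there are a point `P` of the short model of the base curve and a point `P'` of
exact order five of the short model of the member such that every `ℤ`-linear relation among
`φ² P, φ P, P` holds among `φ² P', φ P', P'`. -/
theorem transport [IsAlgClosed K]
    (h2 : (2 : K) ≠ 0) (h3 : (3 : K) ≠ 0) (h5 : (5 : K) ≠ 0)
    (F4 F6 : (ZMod ℓ)[X]) (s c4 c6 c4' c6' : ZMod ℓ)
    (h04 : F4.eval 0 = c4) (h06 : F6.eval 0 = c6) (hs4 : F4.eval s = c4') (hs6 : F6.eval s = c6')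
    (hΔ : c4 ^ 3 ≠ c6 ^ 2) (hΔ' : c4' ^ 3 ≠ c6' ^ 2)
    (Nf Df : K → K → K[X])
    (hNf : ∀ (f : K →+* K) (w d : K), (Nf w d).map f = Nf (f w) (f d))
    (hDf : ∀ (f : K →+* K) (w d : K), (Df w d).map f = Df (f w) (f d))
    (hchart : ∀ w d : K, w ≠ 0 → d ≠ 0 → d ^ 2 - 11 * d - 1 ≠ 0 →
      algebraMap (ZMod ℓ) K c4 = w ^ 4 * (d^4 - 12*d^3 + 14*d^2 + 12*d + 1) →
      algebraMap (ZMod ℓ) K c6 = w ^ 6 * (-(d^6 - 18*d^5 + 75*d^4 + 75*d^2 + 18*d + 1)) →
      F4.map (algebraMap (ZMod ℓ) K) = C (w ^ 4) * c4F (Nf w d) (Df w d) ∧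
      F6.map (algebraMap (ZMod ℓ) K) = C (w ^ 6) * c6F (Nf w d) (Df w d)) :
    ∃ (P : ((⟨0, 0, 0, -27 * c4, -54 * c6⟩ : WeierstrassCurve (ZMod ℓ)).toAffine⁄K).Point)
      (P' : ((⟨0, 0, 0, -27 * c4', -54 * c6'⟩ : WeierstrassCurve (ZMod ℓ)).toAffine⁄K).Point),
      P' ≠ 0 ∧ (5 : ℤ) • P' = 0 ∧ ∀ u v w : ℤ,
        u • Point.map (W' := (⟨0, 0, 0, -27 * c4, -54 * c6⟩ : WeierstrassCurve (ZMod ℓ)).toAffine)
              (FiniteField.frobeniusAlgHom (ZMod ℓ) K)
              (Point.map (W' := (⟨0, 0, 0, -27 * c4, -54 * c6⟩ : WeierstrassCurve (ZMod ℓ)).toAffine)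
                (FiniteField.frobeniusAlgHom (ZMod ℓ) K) P)
          + v • Point.map (W' := (⟨0, 0, 0, -27 * c4, -54 * c6⟩ : WeierstrassCurve (ZMod ℓ)).toAffine)
                (FiniteField.frobeniusAlgHom (ZMod ℓ) K) P
          + w • P = 0 →
        u • Point.map (W' := (⟨0, 0, 0, -27 * c4', -54 * c6'⟩ : WeierstrassCurve (ZMod ℓ)).toAffine)
              (FiniteField.frobeniusAlgHom (ZMod ℓ) K)
              (Point.map (W' := (⟨0, 0, 0, -27 * c4', -54 * c6'⟩ :
                WeierstrassCurve (ZMod ℓ)).toAffine) (FiniteField.frobeniusAlgHom (ZMod ℓ) K) P')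
          + v • Point.map (W' := (⟨0, 0, 0, -27 * c4', -54 * c6'⟩ :
                WeierstrassCurve (ZMod ℓ)).toAffine) (FiniteField.frobeniusAlgHom (ZMod ℓ) K) P'
          + w • P' = 0 := by
  subst h04 h06
  let _ : DecidableEq (RatFunc K) := Classical.decEq _
  have hab : (algebraMap (ZMod ℓ) K (F4.eval 0)) ^ 3 ≠ (algebraMap (ZMod ℓ) K (F6.eval 0)) ^ 2 := by
    rw [← map_pow, ← map_pow]
    exact fun h => hΔ ((algebraMap (ZMod ℓ) K).injective h)
  obtain ⟨w, d, hw, hd, hq, hc4, hc6⟩ :=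
    Fermat.Agent.S52.TateParamB.exists_tate_param h2 h3 h5 _ _ hab
  obtain ⟨S, hS⟩ := exists_sections ℓ K h2 h3 h5 F4 F6 hΔ Nf Df hNf hDf hchart w d hw hd hq hc4 hc6
  obtain ⟨Q, -, -, hQ1, hQ2, hQ⟩ := hS 0 _ _ rfl rfl hΔ
  obtain ⟨Q', hQ'0, hQ'5, hQ'1, hQ'2, hQ'⟩ := hS s c4' c6' hs4 hs6 hΔ'
  refine ⟨Q 0, Q' 0, hQ'0, hQ'5, ?_⟩
  intro u v w' h
  rw [hQ1, hQ2] at h
  rw [hQ'1, hQ'2]
  have h1 : ∑ i, ![w', v, u] i • Q i = 0 := by rw [sum_three]; exact h
  have h2' := (hQ' _).mpr ((hQ _).mp h1)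
  rw [sum_three] at h2'
  exact h2'

end Transport

end Fermat.Agent.S52.X5Fl.AsmB
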