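/-
S52 block [X5Fl], B-assembly (owner: helper32), part 1: the Tate sections of the 5-congruent family
as polynomial FUNCTIONS of `(w, d, s)` over an arbitrary commutative ring.

For a parameter `(w, d)` of `(c4, c6) = (w⁴ c4T(d), w⁶ c6T(d))` the member with parameter `s` of the
family, `y² = x³ - 27 fam4(c4,c6,s) x - 54 fam6(c4,c6,s)`, carries the point
`(sx w d s, sy w d s)`, where `N = famN d (w² s)`, `D = famD d (w² s)`,
`sx = 3 w² (N² - 6 N D + D²)`, `sy = -108 w³ N D²`  (the Tate point of order `5`).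
Everything here is a polynomial identity, natural in ring homomorphisms (so evaluation at a
parameter value and the Frobenius are both instances of `map_sx`, `map_sy`).
-/
import Mathlib
import Fermat.Agent.S52.TateFam
import Fermat.Agent.S52.TateFamId
import Fermat.Agent.S52.GlueArith

set_option autoImplicit false

namespace Fermat.Agent.S52.X5Fl.Sect

open Fermat.Agent.S52

section Fam

variable {R : Type*} [CommRing R]

/-- The family invariant `fam4` is isobaric: weights `(4, 6, -2)` for `(c4, c6, s)`. -/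
theorem fam4_smul (l a b s : R) :
    Tate.fam4 (l ^ 4 * a) (l ^ 6 * b) s = l ^ 4 * Tate.fam4 a b (l ^ 2 * s) := by
  unfold Tate.fam4 Tate.fam4c0 Tate.fam4c1 Tate.fam4c2 Tate.fam4c3 Tate.fam4c4 Tate.fam4c5 Tate.fam4c6 Tate.fam4c7 Tate.fam4c8 Tate.fam4c9 Tate.fam4c10 Tate.fam4c11 Tate.fam4c12 Tate.fam4c13 Tate.fam4c14 Tate.fam4c15 Tate.fam4c16 Tate.fam4c17 Tate.fam4c18 Tate.fam4c19 Tate.fam4c20
  ring

/-- The family invariant `fam6` is isobaric. -/
theorem fam6_smul (l a b s : R) :
    Tate.fam6 (l ^ 4 * a) (l ^ 6 * b) s = l ^ 6 * Tate.fam6 a b (l ^ 2 * s) := by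
  unfold Tate.fam6 Tate.fam6c0 Tate.fam6c1 Tate.fam6c2 Tate.fam6c3 Tate.fam6c4 Tate.fam6c5 Tate.fam6c6 Tate.fam6c7 Tate.fam6c8 Tate.fam6c9 Tate.fam6c10 Tate.fam6c11 Tate.fam6c12 Tate.fam6c13 Tate.fam6c14 Tate.fam6c15 Tate.fam6c16 Tate.fam6c17 Tate.fam6c18 Tate.fam6c19 Tate.fam6c20 Tate.fam6c21 Tate.fam6c22 Tate.fam6c23 Tate.fam6c24 Tate.fam6c25 Tate.fam6c26 Tate.fam6c27 Tate.fam6c28 Tate.fam6c29 Tate.fam6c30
  ring

/-- Numerator of the Tate parameter of the member `s`, for the parameter `(w, d)`. -/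
def sN (w d s : R) : R := Tate.famN d (w ^ 2 * s)

/-- Denominator of the Tate parameter of the member `s`, for the parameter `(w, d)`. -/
def sD (w d s : R) : R := Tate.famD d (w ^ 2 * s)

/-- `x`-coordinate of the Tate section. -/
def sx (w d s : R) : R :=
  3 * w ^ 2 * (sN w d s ^ 2 - 6 * sN w d s * sD w d s + sD w d s ^ 2)

/-- `y`-coordinate of the Tate section. -/
def sy (w d s : R) : R := -(108 * w ^ 3 * sN w d s * sD w d s ^ 2)

theorem sN_zero (w d : R) : sN w d 0 = d := by
  simp [sN, Tate.famN, Tate.famNc0]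

theorem sD_zero (w d : R) : sD w d 0 = 1 := by
  simp [sD, Tate.famD, Tate.famDc0]

/-- `c4` of the member in terms of the Tate parameter `N / D`. -/
theorem fam4_param (w d s : R) :
    Tate.fam4 (w ^ 4 * Tate.c4T d) (w ^ 6 * Tate.c6T d) s =
      w ^ 4 * Tate.C4form (sN w d s) (sD w d s) := by
  rw [fam4_smul, Tate.fam4_tate, sN, sD]

/-- `c6` of the member in terms of the Tate parameter `N / D`. -/
theorem fam6_param (w d s : R) :
    Tate.fam6 (w ^ 4 * Tate.c4T d) (w ^ 6 * Tate.c6T d) s =
      w ^ 6 * Tate.C6form (sN w d s) (sD w d s) := by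
  rw [fam6_smul, Tate.fam6_tate, sN, sD]

/-- The Tate section lies on the member: `y² = x³ - 27 fam4 x - 54 fam6`. -/
theorem sect_equation (w d s : R) :
    sy w d s ^ 2 = sx w d s ^ 3
      + -27 * Tate.fam4 (w ^ 4 * Tate.c4T d) (w ^ 6 * Tate.c6T d) s * sx w d s
      + -54 * Tate.fam6 (w ^ 4 * Tate.c4T d) (w ^ 6 * Tate.c6T d) s := by
  rw [fam4_param, fam6_param, sx, sy, Tate.C4form, Tate.C6form]
  ring

end Fam

section Map

variable {R S : Type*} [CommRing R] [CommRing S] (f : R →+* S)

theorem map_sN (w d s : R) : f (sN w d s) = sN (f w) (f d) (f s) := by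
  simp only [sN, GlueArith.map_famN, map_mul, map_pow]

theorem map_sD (w d s : R) : f (sD w d s) = sD (f w) (f d) (f s) := by
  simp only [sD, GlueArith.map_famD, map_mul, map_pow]

theorem map_sx (w d s : R) : f (sx w d s) = sx (f w) (f d) (f s) := by
  simp only [sx, map_sN, map_sD, map_mul, map_pow, map_add, map_sub, map_ofNat]

theorem map_sy (w d s : R) : f (sy w d s) = sy (f w) (f d) (f s) := by
  simp only [sy, map_sN, map_sD, map_mul, map_pow, map_neg, map_ofNat]

end Map

section Poly

open Polynomial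

variable {K : Type*} [CommRing K]

/-- The generic member of the family of `(a, b)`, over `K[X]`. -/
noncomputable def genCurve (a b : K) : WeierstrassCurve K[X] :=
  ⟨0, 0, 0, -27 * Tate.fam4 (C a) (C b) X, -54 * Tate.fam6 (C a) (C b) X⟩

theorem eval_sN (w d t : K) : (sN (C w) (C d) X).eval t = sN w d t := by
  have h := map_sN (Polynomial.evalRingHom t) (C w) (C d) X
  simpa using h

theorem eval_sD (w d t : K) : (sD (C w) (C d) X).eval t = sD w d t := by
  have h := map_sD (Polynomial.evalRingHom t) (C w) (C d) X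
  simpa using h

theorem eval_sx (w d t : K) : (sx (C w) (C d) X).eval t = sx w d t := by
  have h := map_sx (Polynomial.evalRingHom t) (C w) (C d) X
  simpa using h

theorem eval_sy (w d t : K) : (sy (C w) (C d) X).eval t = sy w d t := by
  have h := map_sy (Polynomial.evalRingHom t) (C w) (C d) X
  simpa using h

theorem eval_fam4 (a b t : K) : (Tate.fam4 (C a) (C b) X).eval t = Tate.fam4 a b t := by
  have h := GlueArith.map_fam4 (Polynomial.evalRingHom t) (C a) (C b) X
  simpa using h

theorem eval_fam6 (a b t : K) : (Tate.fam6 (C a) (C b) X).eval t = Tate.fam6 a b t := by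
  have h := GlueArith.map_fam6 (Polynomial.evalRingHom t) (C a) (C b) X
  simpa using h

/-- The specialisation of the generic member at `t`. -/
theorem genCurve_map_eval (a b t : K) :
    (genCurve a b).map (Polynomial.evalRingHom t) =
      ⟨0, 0, 0, -27 * Tate.fam4 a b t, -54 * Tate.fam6 a b t⟩ := by
  ext <;> simp [genCurve, eval_fam4, eval_fam6]

/-- `c4, c6` of the generic member in terms of the polynomial Tate parameter of `(w, d)`. -/
theorem genCurve_fam4 (a b w d : K) (ha : a = w ^ 4 * Tate.c4T d) (hb : b = w ^ 6 * Tate.c6T d) :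
    Tate.fam4 (C a) (C b) X =
      C w ^ 4 * Tate.C4form (sN (C w) (C d) X) (sD (C w) (C d) X) := by
  rw [← fam4_param, ha, hb]
  simp only [map_mul, map_pow, GlueArith.map_c4T, GlueArith.map_c6T]

theorem genCurve_fam6 (a b w d : K) (ha : a = w ^ 4 * Tate.c4T d) (hb : b = w ^ 6 * Tate.c6T d) :
    Tate.fam6 (C a) (C b) X =
      C w ^ 6 * Tate.C6form (sN (C w) (C d) X) (sD (C w) (C d) X) := by
  rw [← fam6_param, ha, hb]
  simp only [map_mul, map_pow, GlueArith.map_c4T, GlueArith.map_c6T]

end Poly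

end Fermat.Agent.S52.X5Fl.Sect
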