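/-
S52 block [X5Fl], step (4) (assembly), concrete version (owner: helper32).

`x5_transport`: for a prime `ℓ ≥ 7`, `c4 c6 t : ZMod ℓ` with `c4³ ≠ c6²` and `fam4³ ≠ fam6²` at `t`,
over an algebraically closed field `K ⊇ ZMod ℓ` there are a point `P` of the short curve of
`(c4, c6)` and a point `P'` of exact order `5` of the short curve of the member
`(fam4 c4 c6 t, fam6 c4 c6 t)` such that every integer relation among `φ² P, φ P, P`
(`φ` = Frobenius) also holds for `P'`.

Proof: a Tate parameter `(w, d)` of `(c4, c6)` over `K` and its Frobenius conjugates give three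
Tate sections of the generic member over `K[X]` (`Sect.lean`, `TransportB.Sect`); relations between
their specialisations transfer from the fibre at `0` to the fibre at `t` (`TransportB.transport`,
i.e. injectivity of reduction on `5`-torsion, `SpecRed.spec_rel`), and the Frobenius maps the
specialisation of a section at a point of `ZMod ℓ` to the specialisation of the conjugate section.
-/
import Mathlib
import Fermat.Agent.S52.TateParam
import Fermat.Agent.S52.X5Fl.Sect
import Fermat.Agent.S52.X5Fl.TransportB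

set_option autoImplicit false

open WeierstrassCurve WeierstrassCurve.Affine
open scoped WeierstrassCurve.Affine

namespace Fermat.Agent.S52.X5Fl.AsmC

open Polynomial Fermat.Agent.S52

section Transfer

variable {K : Type*} [Field K] [DecidableEq K]

omit [DecidableEq K] in
/-- Congruence for affine points. -/
theorem some_congr {V : WeierstrassCurve K} {x x' y y' : K} (hx : x = x') (hy : y = y')
    (h : V.toAffine.Nonsingular x y) (h' : V.toAffine.Nonsingular x' y') :
    Point.some x y h = Point.some x' y' h' := by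
  subst hx hy; rfl

/-- Relations between three affine points do not depend on the way the curve is written. -/
theorem rel_congr {V V' : WeierstrassCurve K} (hV : V = V') (x y : Fin 3 → K)
    (h : ∀ i, V.toAffine.Nonsingular (x i) (y i)) (h' : ∀ i, V'.toAffine.Nonsingular (x i) (y i))
    (u : Fin 3 → ℤ) :
    (∑ i, u i • Point.some _ _ (h i) = 0) ↔ (∑ i, u i • Point.some _ _ (h' i) = 0) := by
  subst hV; exact Iff.rfl

/-- Multiples of an affine point do not depend on the way the curve is written. -/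
theorem smul_congr {V V' : WeierstrassCurve K} (hV : V = V') (x y : K)
    (h : V.toAffine.Nonsingular x y) (h' : V'.toAffine.Nonsingular x y) (n : ℤ) :
    (n • Point.some _ _ h = 0) ↔ (n • Point.some _ _ h' = 0) := by
  subst hV; exact Iff.rfl

end Transfer

section MkSect

variable {K : Type*} [Field K]

/-- The Tate section of the generic member attached to a parameter `(w, d)` of `(a, b)`. -/
noncomputable def mkSect (a b w d : K) (hw : w ≠ 0) (ha : a = w ^ 4 * Tate.c4T d)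
    (hb : b = w ^ 6 * Tate.c6T d) :
    TransportB.Sect (Tate.fam4 (C a) (C b) X) (Tate.fam6 (C a) (C b) X) where
  w := w
  N := Sect.sN (C w) (C d) X
  D := Sect.sD (C w) (C d) X
  hw := hw
  h4 := by
    rw [Sect.genCurve_fam4 a b w d ha hb, C_pow]
    rfl
  h6 := by
    rw [Sect.genCurve_fam6 a b w d ha hb, C_pow]
    unfold Tate.C6form TransportB.c6F
    ring

theorem mkSect_xP_eval (a b w d : K) (hw : w ≠ 0) (ha : a = w ^ 4 * Tate.c4T d)
    (hb : b = w ^ 6 * Tate.c6T d) (t : K) :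
    ((mkSect a b w d hw ha hb).xP).eval t = Sect.sx w d t :=
  Sect.eval_sx w d t

theorem mkSect_yP_eval (a b w d : K) (hw : w ≠ 0) (ha : a = w ^ 4 * Tate.c4T d)
    (hb : b = w ^ 6 * Tate.c6T d) (t : K) :
    ((mkSect a b w d hw ha hb).yP).eval t = Sect.sy w d t :=
  Sect.eval_sy w d t

end MkSect

section Conj

variable (ℓ : ℕ) [Fact ℓ.Prime] (K : Type*) [Field K] [Algebra (ZMod ℓ) K]

/-- The Frobenius of `K` over `ZMod ℓ` as a ring homomorphism. -/
noncomputable def frobR : K →+* K :=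
  (FiniteField.frobeniusAlgHom (ZMod ℓ) K : K →ₐ[ZMod ℓ] K)

theorem frobR_apply (x : K) : frobR ℓ K x = FiniteField.frobeniusAlgHom (ZMod ℓ) K x := rfl

theorem frobR_algebraMap (c : ZMod ℓ) :
    frobR ℓ K (algebraMap (ZMod ℓ) K c) = algebraMap (ZMod ℓ) K c :=
  (FiniteField.frobeniusAlgHom (ZMod ℓ) K).commutes c

theorem natCast_ne_zero_of_lt {n : ℕ} (h0 : 0 < n) (hn : n < ℓ) : ((n : ℕ) : K) ≠ 0 := by
  intro h
  have h1 : ((n : ℕ) : ZMod ℓ) = 0 := by
    apply (algebraMap (ZMod ℓ) K).injective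
    rw [map_natCast, map_zero]
    exact h
  rw [ZMod.natCast_eq_zero_iff] at h1
  exact absurd (Nat.le_of_dvd h0 h1) (not_le.mpr hn)

variable {K}

/-- Frobenius conjugates of a parameter of `(a, b)` are parameters of `(a, b)` when `a, b` are
fixed by the Frobenius. -/
theorem param_iterate (a b w d : K) (hw : w ≠ 0) (ha : a = w ^ 4 * Tate.c4T d)
    (hb : b = w ^ 6 * Tate.c6T d) (hFa : frobR ℓ K a = a) (hFb : frobR ℓ K b = b) (n : ℕ) :
    (frobR ℓ K)^[n] w ≠ 0 ∧
      a = ((frobR ℓ K)^[n] w) ^ 4 * Tate.c4T ((frobR ℓ K)^[n] d) ∧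
      b = ((frobR ℓ K)^[n] w) ^ 6 * Tate.c6T ((frobR ℓ K)^[n] d) := by
  induction n with
  | zero => exact ⟨hw, ha, hb⟩
  | succ n ih =>
    rw [Function.iterate_succ_apply', Function.iterate_succ_apply']
    refine ⟨(map_ne_zero (frobR ℓ K)).mpr ih.1, ?_, ?_⟩
    · have h := congrArg (frobR ℓ K) ih.2.1
      rwa [hFa, map_mul, map_pow, GlueArith.map_c4T] at h
    · have h := congrArg (frobR ℓ K) ih.2.2
      rwa [hFb, map_mul, map_pow, GlueArith.map_c6T] at h

/-- The `n`-th Frobenius conjugate of the Tate section of a parameter. -/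
noncomputable def conjSect (a b w d : K) (hw : w ≠ 0) (ha : a = w ^ 4 * Tate.c4T d)
    (hb : b = w ^ 6 * Tate.c6T d) (hFa : frobR ℓ K a = a) (hFb : frobR ℓ K b = b) (n : ℕ) :
    TransportB.Sect (Tate.fam4 (C a) (C b) X) (Tate.fam6 (C a) (C b) X) :=
  mkSect a b ((frobR ℓ K)^[n] w) ((frobR ℓ K)^[n] d)
    (param_iterate ℓ a b w d hw ha hb hFa hFb n).1
    (param_iterate ℓ a b w d hw ha hb hFa hFb n).2.1
    (param_iterate ℓ a b w d hw ha hb hFa hFb n).2.2

theorem conjSect_xP_frob (a b w d : K) (hw : w ≠ 0) (ha : a = w ^ 4 * Tate.c4T d)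
    (hb : b = w ^ 6 * Tate.c6T d) (hFa : frobR ℓ K a = a) (hFb : frobR ℓ K b = b) (n : ℕ)
    (t : ZMod ℓ) :
    frobR ℓ K (((conjSect ℓ a b w d hw ha hb hFa hFb n).xP).eval (algebraMap (ZMod ℓ) K t)) =
      ((conjSect ℓ a b w d hw ha hb hFa hFb (n + 1)).xP).eval (algebraMap (ZMod ℓ) K t) := by
  unfold conjSect
  rw [mkSect_xP_eval, mkSect_xP_eval, Sect.map_sx, frobR_algebraMap,
    Function.iterate_succ_apply', Function.iterate_succ_apply']

theorem conjSect_yP_frob (a b w d : K) (hw : w ≠ 0) (ha : a = w ^ 4 * Tate.c4T d)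
    (hb : b = w ^ 6 * Tate.c6T d) (hFa : frobR ℓ K a = a) (hFb : frobR ℓ K b = b) (n : ℕ)
    (t : ZMod ℓ) :
    frobR ℓ K (((conjSect ℓ a b w d hw ha hb hFa hFb n).yP).eval (algebraMap (ZMod ℓ) K t)) =
      ((conjSect ℓ a b w d hw ha hb hFa hFb (n + 1)).yP).eval (algebraMap (ZMod ℓ) K t) := by
  unfold conjSect
  rw [mkSect_yP_eval, mkSect_yP_eval, Sect.map_sy, frobR_algebraMap,
    Function.iterate_succ_apply', Function.iterate_succ_apply']

end Conj

section Fibre

variable (ℓ : ℕ) [Fact ℓ.Prime] {K : Type*} [Field K] [Algebra (ZMod ℓ) K] [DecidableEq K]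

/-- The points of the three conjugate sections on one nonsingular fibre (written over `ZMod ℓ` as
`E`): nonsingular, the first one killed by `5`, permuted by the Frobenius, and relations between
them do not depend on the way the curve is written. -/
theorem fibre (h2 : (2 : K) ≠ 0) (h3 : (3 : K) ≠ 0)
    (a b w d : K) (hw : w ≠ 0) (ha : a = w ^ 4 * Tate.c4T d) (hb : b = w ^ 6 * Tate.c6T d)
    (hFa : frobR ℓ K a = a) (hFb : frobR ℓ K b = b)
    (E : WeierstrassCurve (ZMod ℓ)) (t : ZMod ℓ)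
    (hE : TransportB.sw ((Tate.fam4 (C a) (C b) X).eval (algebraMap (ZMod ℓ) K t))
        ((Tate.fam6 (C a) (C b) X).eval (algebraMap (ZMod ℓ) K t)) =
          E.map (algebraMap (ZMod ℓ) K))
    (hΔ : (TransportB.sw ((Tate.fam4 (C a) (C b) X).eval (algebraMap (ZMod ℓ) K t))
        ((Tate.fam6 (C a) (C b) X).eval (algebraMap (ZMod ℓ) K t))).Δ ≠ 0) :
    ∃ (hs : ∀ n : ℕ, (TransportB.sw ((Tate.fam4 (C a) (C b) X).eval (algebraMap (ZMod ℓ) K t))
          ((Tate.fam6 (C a) (C b) X).eval (algebraMap (ZMod ℓ) K t))).toAffine.Nonsingular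
          (((conjSect ℓ a b w d hw ha hb hFa hFb n).xP).eval (algebraMap (ZMod ℓ) K t))
          (((conjSect ℓ a b w d hw ha hb hFa hFb n).yP).eval (algebraMap (ZMod ℓ) K t)))
      (hn : ∀ n : ℕ, (E.toAffine⁄K).Nonsingular
          (((conjSect ℓ a b w d hw ha hb hFa hFb n).xP).eval (algebraMap (ZMod ℓ) K t))
          (((conjSect ℓ a b w d hw ha hb hFa hFb n).yP).eval (algebraMap (ZMod ℓ) K t))),
      (5 : ℤ) • (Point.some _ _ (hn 0)) = 0 ∧
      Point.map (W' := E.toAffine) (FiniteField.frobeniusAlgHom (ZMod ℓ) K)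
          (Point.some _ _ (hn 0)) = Point.some _ _ (hn 1) ∧
      Point.map (W' := E.toAffine) (FiniteField.frobeniusAlgHom (ZMod ℓ) K)
          (Point.some _ _ (hn 1)) = Point.some _ _ (hn 2) ∧
      ∀ u₀ u₁ u₂ : ℤ,
        (∑ i : Fin 3, ![u₀, u₁, u₂] i • Point.some _ _ (hs i) = 0) ↔
          (u₀ • Point.some _ _ (hn 0) + u₁ • Point.some _ _ (hn 1)
            + u₂ • Point.some _ _ (hn 2) = 0) := by
  have hsp := fun n => (conjSect ℓ a b w d hw ha hb hFa hFb n).special h2 h3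
    (algebraMap (ZMod ℓ) K t) hΔ
  choose hs h5 using hsp
  have hn : ∀ n : ℕ, (E.toAffine⁄K).Nonsingular
      (((conjSect ℓ a b w d hw ha hb hFa hFb n).xP).eval (algebraMap (ZMod ℓ) K t))
      (((conjSect ℓ a b w d hw ha hb hFa hFb n).yP).eval (algebraMap (ZMod ℓ) K t)) := fun n => by
    have h := hs n
    rw [hE] at h
    exact h
  have hfr : ∀ n, Point.map (W' := E.toAffine) (FiniteField.frobeniusAlgHom (ZMod ℓ) K)
      (Point.some _ _ (hn n)) = Point.some _ _ (hn (n + 1)) := by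
    intro n
    rw [Point.map_some]
    exact some_congr (conjSect_xP_frob ℓ a b w d hw ha hb hFa hFb n t)
      (conjSect_yP_frob ℓ a b w d hw ha hb hFa hFb n t) _ _
  refine ⟨hs, hn, ?_, hfr 0, hfr 1, ?_⟩
  · exact (smul_congr hE _ _ (hs 0) (hn 0) 5).mp (h5 0)
  · intro u₀ u₁ u₂
    refine (rel_congr hE _ _ (fun i : Fin 3 => hs i) (fun i : Fin 3 => hn i) ![u₀, u₁, u₂]).trans ?_
    rw [Fin.sum_univ_three]
    exact Iff.rfl

end Fibre

section Main

variable (ℓ : ℕ) [Fact ℓ.Prime]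

/-- **[X5Fl], the export.**  For a prime `ℓ ≥ 7`, `c4 c6 t : ZMod ℓ` with `c4³ ≠ c6²` and
`fam4³ ≠ fam6²` at `t`, and an algebraically closed field `K` over `ZMod ℓ`: there are a point `P` of
the short curve of `(c4, c6)` and a point `P'` of exact order `5` of the short curve of the member
`(fam4 c4 c6 t, fam6 c4 c6 t)`, both over `K`, such that every integer relation among
`φ² P, φ P, P` (`φ` the Frobenius) also holds for `P'`. -/
theorem x5_transport (hℓ : 7 ≤ ℓ) (K : Type*) [Field K] [Algebra (ZMod ℓ) K] [IsAlgClosed K]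
    [DecidableEq K] (c4 c6 t : ZMod ℓ) (h : c4 ^ 3 ≠ c6 ^ 2)
    (h' : Tate.fam4 c4 c6 t ^ 3 ≠ Tate.fam6 c4 c6 t ^ 2) :
    ∃ (P : ((⟨0, 0, 0, -27 * c4, -54 * c6⟩ : WeierstrassCurve (ZMod ℓ)).toAffine⁄K).Point)
      (P' : ((⟨0, 0, 0, -27 * Tate.fam4 c4 c6 t, -54 * Tate.fam6 c4 c6 t⟩ :
              WeierstrassCurve (ZMod ℓ)).toAffine⁄K).Point),
      P' ≠ 0 ∧ (5 : ℤ) • P' = 0 ∧ ∀ u v w : ℤ,
        u • Point.map (W' := (⟨0, 0, 0, -27 * c4, -54 * c6⟩ : WeierstrassCurve (ZMod ℓ)).toAffine)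
              (FiniteField.frobeniusAlgHom (ZMod ℓ) K)
              (Point.map (W' := (⟨0, 0, 0, -27 * c4, -54 * c6⟩ : WeierstrassCurve (ZMod ℓ)).toAffine)
                (FiniteField.frobeniusAlgHom (ZMod ℓ) K) P)
          + v • Point.map (W' := (⟨0, 0, 0, -27 * c4, -54 * c6⟩ : WeierstrassCurve (ZMod ℓ)).toAffine)
                (FiniteField.frobeniusAlgHom (ZMod ℓ) K) P
          + w • P = 0 →
        u • Point.map (W' := (⟨0, 0, 0, -27 * Tate.fam4 c4 c6 t, -54 * Tate.fam6 c4 c6 t⟩ :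
                WeierstrassCurve (ZMod ℓ)).toAffine)
              (FiniteField.frobeniusAlgHom (ZMod ℓ) K)
              (Point.map (W' := (⟨0, 0, 0, -27 * Tate.fam4 c4 c6 t, -54 * Tate.fam6 c4 c6 t⟩ :
                WeierstrassCurve (ZMod ℓ)).toAffine)
                (FiniteField.frobeniusAlgHom (ZMod ℓ) K) P')
          + v • Point.map (W' := (⟨0, 0, 0, -27 * Tate.fam4 c4 c6 t, -54 * Tate.fam6 c4 c6 t⟩ :
                WeierstrassCurve (ZMod ℓ)).toAffine)
                (FiniteField.frobeniusAlgHom (ZMod ℓ) K) P'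
          + w • P' = 0 := by
  have hinj : Function.Injective (algebraMap (ZMod ℓ) K) := (algebraMap (ZMod ℓ) K).injective
  have h2 : (2 : K) ≠ 0 := by
    have h0 := natCast_ne_zero_of_lt ℓ K (n := 2) (by norm_num) (by omega)
    exact_mod_cast h0
  have h3 : (3 : K) ≠ 0 := by
    have h0 := natCast_ne_zero_of_lt ℓ K (n := 3) (by norm_num) (by omega)
    exact_mod_cast h0
  have h5 : (5 : K) ≠ 0 := by
    have h0 := natCast_ne_zero_of_lt ℓ K (n := 5) (by norm_num) (by omega)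
    exact_mod_cast h0
  have hab : algebraMap (ZMod ℓ) K c4 ^ 3 ≠ algebraMap (ZMod ℓ) K c6 ^ 2 := by
    intro e
    apply h
    apply hinj
    rw [map_pow, map_pow]
    exact e
  have hab' : algebraMap (ZMod ℓ) K (Tate.fam4 c4 c6 t) ^ 3 ≠
      algebraMap (ZMod ℓ) K (Tate.fam6 c4 c6 t) ^ 2 := by
    intro e
    apply h'
    apply hinj
    rw [map_pow, map_pow]
    exact e
  obtain ⟨w, d, hw, -, -, ha, hb⟩ := TateParam.exists_tate_param h2 h3 h5
    (algebraMap (ZMod ℓ) K c4) (algebraMap (ZMod ℓ) K c6) hab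
  have hFa := frobR_algebraMap ℓ K c4
  have hFb := frobR_algebraMap ℓ K c6
  have hc : (2 : K) ^ 6 * 3 ^ 9 ≠ 0 := mul_ne_zero (pow_ne_zero _ h2) (pow_ne_zero _ h3)
  -- the two fibres
  have hE0 : TransportB.sw
      ((Tate.fam4 (C (algebraMap (ZMod ℓ) K c4)) (C (algebraMap (ZMod ℓ) K c6)) X).eval
        (algebraMap (ZMod ℓ) K 0))
      ((Tate.fam6 (C (algebraMap (ZMod ℓ) K c4)) (C (algebraMap (ZMod ℓ) K c6)) X).eval
        (algebraMap (ZMod ℓ) K 0)) =
      (⟨0, 0, 0, -27 * c4, -54 * c6⟩ : WeierstrassCurve (ZMod ℓ)).map (algebraMap (ZMod ℓ) K) := by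
    rw [Sect.eval_fam4, Sect.eval_fam6, map_zero, GlueArith.fam4_zero, GlueArith.fam6_zero]
    ext <;> simp [TransportB.sw, map_ofNat]
  have hE1 : TransportB.sw
      ((Tate.fam4 (C (algebraMap (ZMod ℓ) K c4)) (C (algebraMap (ZMod ℓ) K c6)) X).eval
        (algebraMap (ZMod ℓ) K t))
      ((Tate.fam6 (C (algebraMap (ZMod ℓ) K c4)) (C (algebraMap (ZMod ℓ) K c6)) X).eval
        (algebraMap (ZMod ℓ) K t)) =
      (⟨0, 0, 0, -27 * Tate.fam4 c4 c6 t, -54 * Tate.fam6 c4 c6 t⟩ :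
        WeierstrassCurve (ZMod ℓ)).map (algebraMap (ZMod ℓ) K) := by
    rw [Sect.eval_fam4, Sect.eval_fam6, ← GlueArith.map_fam4, ← GlueArith.map_fam6]
    ext <;> simp [TransportB.sw, map_ofNat]
  have hΔ0 : (TransportB.sw
      ((Tate.fam4 (C (algebraMap (ZMod ℓ) K c4)) (C (algebraMap (ZMod ℓ) K c6)) X).eval
        (algebraMap (ZMod ℓ) K 0))
      ((Tate.fam6 (C (algebraMap (ZMod ℓ) K c4)) (C (algebraMap (ZMod ℓ) K c6)) X).eval
        (algebraMap (ZMod ℓ) K 0))).Δ ≠ 0 := by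
    rw [TransportB.sw_Δ, Sect.eval_fam4, Sect.eval_fam6, map_zero, GlueArith.fam4_zero,
      GlueArith.fam6_zero]
    exact mul_ne_zero hc (sub_ne_zero.mpr hab)
  have hΔ1 : (TransportB.sw
      ((Tate.fam4 (C (algebraMap (ZMod ℓ) K c4)) (C (algebraMap (ZMod ℓ) K c6)) X).eval
        (algebraMap (ZMod ℓ) K t))
      ((Tate.fam6 (C (algebraMap (ZMod ℓ) K c4)) (C (algebraMap (ZMod ℓ) K c6)) X).eval
        (algebraMap (ZMod ℓ) K t))).Δ ≠ 0 := by
    rw [TransportB.sw_Δ, Sect.eval_fam4, Sect.eval_fam6, ← GlueArith.map_fam4,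
      ← GlueArith.map_fam6]
    exact mul_ne_zero hc (sub_ne_zero.mpr hab')
  obtain ⟨hs0, hn0, -, hfa0, hfb0, hrel0⟩ :=
    fibre ℓ h2 h3 _ _ w d hw ha hb hFa hFb _ 0 hE0 hΔ0
  obtain ⟨hs1, hn1, h51, hfa1, hfb1, hrel1⟩ :=
    fibre ℓ h2 h3 _ _ w d hw ha hb hFa hFb _ t hE1 hΔ1
  refine ⟨Point.some _ _ (hn0 0), Point.some _ _ (hn1 0), Point.some_ne_zero _, h51, ?_⟩
  intro u v w' hrel
  rw [hfa0, hfb0] at hrel
  rw [hfa1, hfb1]
  have key := TransportB.transport h2 h3 h5
    (fun i : Fin 3 => conjSect ℓ _ _ w d hw ha hb hFa hFb i)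
    (algebraMap (ZMod ℓ) K 0) (algebraMap (ZMod ℓ) K t) hΔ0 hΔ1
    (fun i => hs0 i) (fun i => hs1 i) ![w', v, u]
  have e0 : w' • Point.some _ _ (hn0 0) + v • Point.some _ _ (hn0 1)
      + u • Point.some _ _ (hn0 2) = 0 := by
    rw [← hrel]; abel
  have e1 := (hrel1 w' v u).mp (key.mp ((hrel0 w' v u).mpr e0))
  rw [← e1]; abel

end Main

end Fermat.Agent.S52.X5Fl.AsmC
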