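/-
S52 / [X5Fl] step (4), B-copy (helper57): transport of ℤ-linear relations between Tate sections.

Family-independent core.  `k` a field with `2, 3, 5 ≠ 0`; `f4 f6 : k[X]` the invariants of a
one-parameter family of short Weierstrass curves `y² = x³ - 27 f4 x - 54 f6`; a *Tate section*
is a triple `(w, N, D)` with `f4 = w⁴·C4(N, D)`, `f6 = w⁶·C6(N, D)` (homogeneous Tate forms).
Each Tate section gives a point of order dividing `5` with polynomial coordinates
`(3w²(N² - 6ND + D²), -108 w³ N D²)` on the generic curve and on every nonsingular fibre, and a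
`ℤ`-linear relation between three such points holds on one nonsingular fibre iff it holds on any
other one (`transport`), by `SpecRed.spec_rel` (reduction is injective on `5`-torsion).
-/
import Mathlib
import Fermat.Agent.S52.SpecRed
import Fermat.Agent.S52.X5Fl.Tate

set_option autoImplicit false

namespace Fermat.Agent.S52.X5Fl.TransportB

open Polynomial WeierstrassCurve

section Forms

variable {R : Type*} [CommRing R]

/-- Homogeneous `c₄`-form of the Tate normal form. -/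
def c4F (n m : R) : R := n ^ 4 - 12 * n ^ 3 * m + 14 * n ^ 2 * m ^ 2 + 12 * n * m ^ 3 + m ^ 4

/-- Homogeneous `c₆`-form of the Tate normal form. -/
def c6F (n m : R) : R :=
  -((n ^ 2 + m ^ 2) * (n ^ 4 - 18 * n ^ 3 * m + 74 * n ^ 2 * m ^ 2 + 18 * n * m ^ 3 + m ^ 4))

/-- `x`-coordinate of the Tate point on the short model. -/
def xF (w n m : R) : R := 3 * w ^ 2 * (n ^ 2 - 6 * n * m + m ^ 2)

/-- `y`-coordinate of the Tate point on the short model. -/
def yF (w n m : R) : R := -(108 * w ^ 3 * n * m ^ 2)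

theorem map_c4F {S : Type*} [CommRing S] (f : R →+* S) (n m : R) :
    f (c4F n m) = c4F (f n) (f m) := by
  simp only [c4F, map_add, map_sub, map_mul, map_pow, map_ofNat]

theorem map_c6F {S : Type*} [CommRing S] (f : R →+* S) (n m : R) :
    f (c6F n m) = c6F (f n) (f m) := by
  simp only [c6F, map_add, map_sub, map_mul, map_pow, map_ofNat, map_neg]

theorem map_xF {S : Type*} [CommRing S] (f : R →+* S) (w n m : R) :
    f (xF w n m) = xF (f w) (f n) (f m) := by
  simp only [xF, map_add, map_sub, map_mul, map_pow, map_ofNat]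

theorem map_yF {S : Type*} [CommRing S] (f : R →+* S) (w n m : R) :
    f (yF w n m) = yF (f w) (f n) (f m) := by
  simp only [yF, map_mul, map_pow, map_ofNat, map_neg]

theorem disc_forms (n m : R) :
    c4F n m ^ 3 - c6F n m ^ 2 = 1728 * n ^ 5 * m ^ 5 * (n ^ 2 - 11 * n * m - m ^ 2) := by
  unfold c4F c6F; ring

/-- The short Weierstrass curve `y² = x³ - 27 c4 x - 54 c6`. -/
def sw (c4 c6 : R) : WeierstrassCurve R := ⟨0, 0, 0, -27 * c4, -54 * c6⟩

@[simp] theorem sw_a₁ (c4 c6 : R) : (sw c4 c6).a₁ = 0 := rfl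
@[simp] theorem sw_a₂ (c4 c6 : R) : (sw c4 c6).a₂ = 0 := rfl
@[simp] theorem sw_a₃ (c4 c6 : R) : (sw c4 c6).a₃ = 0 := rfl
@[simp] theorem sw_a₄ (c4 c6 : R) : (sw c4 c6).a₄ = -27 * c4 := rfl
@[simp] theorem sw_a₆ (c4 c6 : R) : (sw c4 c6).a₆ = -54 * c6 := rfl

theorem sw_map {S : Type*} [CommRing S] (f : R →+* S) (c4 c6 : R) :
    (sw c4 c6).map f = sw (f c4) (f c6) := by
  ext <;> simp [sw, map_ofNat]

theorem sw_b₂ (c4 c6 : R) : (sw c4 c6).b₂ = 0 := by simp [WeierstrassCurve.b₂]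

theorem sw_c₄ (c4 c6 : R) : (sw c4 c6).c₄ = 6 ^ 4 * c4 := by
  simp [WeierstrassCurve.c₄, WeierstrassCurve.b₂, WeierstrassCurve.b₄]; ring

theorem sw_c₆ (c4 c6 : R) : (sw c4 c6).c₆ = 6 ^ 6 * c6 := by
  simp [WeierstrassCurve.c₆, WeierstrassCurve.b₂, WeierstrassCurve.b₄, WeierstrassCurve.b₆]; ring

theorem sw_Δ (c4 c6 : R) : (sw c4 c6).Δ = 2 ^ 6 * 3 ^ 9 * (c4 ^ 3 - c6 ^ 2) := by
  simp [WeierstrassCurve.Δ, WeierstrassCurve.b₂, WeierstrassCurve.b₄, WeierstrassCurve.b₆,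
    WeierstrassCurve.b₈]; ring

end Forms

section Sections

variable {k : Type*} [Field k]

/-- A Tate section of the family with invariants `f4, f6 ∈ k[X]`. -/
structure Sect (f4 f6 : k[X]) where
  /-- the twist -/
  w : k
  /-- numerator of the Tate parameter -/
  N : k[X]
  /-- denominator of the Tate parameter -/
  D : k[X]
  hw : w ≠ 0
  h4 : f4 = C (w ^ 4) * c4F N D
  h6 : f6 = C (w ^ 6) * c6F N D

variable {f4 f6 : k[X]}

/-- The `x`-coordinate of the section, a polynomial in the parameter. -/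
noncomputable def Sect.xP (σ : Sect f4 f6) : k[X] := xF (C σ.w) σ.N σ.D

/-- The `y`-coordinate of the section, a polynomial in the parameter. -/
noncomputable def Sect.yP (σ : Sect f4 f6) : k[X] := yF (C σ.w) σ.N σ.D

/-- The section gives a nonsingular point killed by `5` on every nonsingular image of the generic
curve under a ring homomorphism `φ : k[X] →+* F` to a field with `2, 3 ≠ 0`. -/
theorem Sect.torsion {F : Type*} [Field F] [DecidableEq F] (φ : k[X] →+* F) (σ : Sect f4 f6)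
    (h2 : (2 : F) ≠ 0) (h3 : (3 : F) ≠ 0) (hΔ : (sw (φ f4) (φ f6)).Δ ≠ 0) :
    ∃ h : (sw (φ f4) (φ f6)).toAffine.Nonsingular (φ σ.xP) (φ σ.yP),
      (5 : ℤ) • Affine.Point.some _ _ h = 0 := by
  have e4 : φ f4 = φ (C σ.w) ^ 4 * c4F (φ σ.N) (φ σ.D) := by
    have h := congrArg φ σ.h4
    rwa [map_mul, map_c4F, C_pow, map_pow] at h
  have e6 : φ f6 = φ (C σ.w) ^ 6 * c6F (φ σ.N) (φ σ.D) := by
    have h := congrArg φ σ.h6
    rwa [map_mul, map_c6F, C_pow, map_pow] at h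
  have hdisc : (sw (φ f4) (φ f6)).Δ = 2 ^ 6 * 3 ^ 9 * φ (C σ.w) ^ 12 *
      (1728 * φ σ.N ^ 5 * φ σ.D ^ 5 * (φ σ.N ^ 2 - 11 * φ σ.N * φ σ.D - φ σ.D ^ 2)) := by
    rw [sw_Δ, e4, e6, ← disc_forms]; ring
  have hw : φ (C σ.w) ≠ 0 := by
    intro h0
    apply hΔ
    rw [hdisc, h0]; ring
  have hN : φ σ.N ≠ 0 := by
    intro h0
    apply hΔ
    rw [hdisc, h0]; ring
  have hD : φ σ.D ≠ 0 := by
    intro h0
    apply hΔ
    rw [hdisc, h0]; ring
  have h6 : (6 : F) ≠ 0 := by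
    have : (6 : F) = 2 * 3 := by norm_num
    rw [this]; exact mul_ne_zero h2 h3
  refine Tate.tate_five_torsion (sw (φ f4) (φ f6)) h2 h3 (6 * φ (C σ.w)) (φ σ.N) (φ σ.D)
    (φ σ.xP) (φ σ.yP) (mul_ne_zero h6 hw) hN hD hΔ ?_ ?_ ?_ ?_
  · rw [sw_c₄, e4]; unfold c4F; ring
  · rw [sw_c₆, e6]; unfold c6F; ring
  · rw [sw_b₂, Sect.xP, map_xF]; unfold xF; ring
  · rw [sw_a₁, sw_a₃, Sect.yP, map_yF]; unfold yF; ring

/-- `Sect.torsion` for the curve written as `(sw f4 f6).map φ`. -/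
theorem Sect.torsion_map {F : Type*} [Field F] [DecidableEq F] (φ : k[X] →+* F) (σ : Sect f4 f6)
    (h2 : (2 : F) ≠ 0) (h3 : (3 : F) ≠ 0) (hΔ : ((sw f4 f6).map φ).Δ ≠ 0) :
    ∃ h : ((sw f4 f6).map φ).toAffine.Nonsingular (φ σ.xP) (φ σ.yP),
      (5 : ℤ) • Affine.Point.some _ _ h = 0 := by
  rw [sw_map] at hΔ ⊢
  exact σ.torsion φ h2 h3 hΔ

/-- The point of the section on the fibre at `t` (nonsingular fibre): nonsingular, killed by `5`. -/
theorem Sect.special [DecidableEq k] (σ : Sect f4 f6) (h2 : (2 : k) ≠ 0) (h3 : (3 : k) ≠ 0)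
    (t : k) (hΔ : (sw (f4.eval t) (f6.eval t)).Δ ≠ 0) :
    ∃ h : (sw (f4.eval t) (f6.eval t)).toAffine.Nonsingular (σ.xP.eval t) (σ.yP.eval t),
      (5 : ℤ) • Affine.Point.some _ _ h = 0 :=
  σ.torsion (evalRingHom t) h2 h3 hΔ

/-- **Transport of relations.**  A `ℤ`-linear relation between the points of three Tate sections
holds on the nonsingular fibre at `t0` iff it holds on the nonsingular fibre at `t1`. -/
theorem transport [DecidableEq k] (h2 : (2 : k) ≠ 0) (h3 : (3 : k) ≠ 0) (h5 : (5 : k) ≠ 0)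
    (σ : Fin 3 → Sect f4 f6) (t0 t1 : k)
    (hΔ0 : (sw (f4.eval t0) (f6.eval t0)).Δ ≠ 0) (hΔ1 : (sw (f4.eval t1) (f6.eval t1)).Δ ≠ 0)
    (hs0 : ∀ i, (sw (f4.eval t0) (f6.eval t0)).toAffine.Nonsingular
      ((σ i).xP.eval t0) ((σ i).yP.eval t0))
    (hs1 : ∀ i, (sw (f4.eval t1) (f6.eval t1)).toAffine.Nonsingular
      ((σ i).xP.eval t1) ((σ i).yP.eval t1))
    (u : Fin 3 → ℤ) :
    (∑ i, u i • Affine.Point.some _ _ (hs0 i) = 0) ↔
      (∑ i, u i • Affine.Point.some _ _ (hs1 i) = 0) := by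
  classical
  have hW : ∀ t : k, (sw f4 f6).map (evalRingHom t) = sw (f4.eval t) (f6.eval t) :=
    fun t => sw_map (evalRingHom t) f4 f6
  have hinj : Function.Injective (algebraMap k (RatFunc k)) := (algebraMap k (RatFunc k)).injective
  have h2' : (2 : RatFunc k) ≠ 0 := by
    rw [← map_ofNat (algebraMap k (RatFunc k)) 2]
    exact fun h => h2 (hinj (by rw [h, map_zero]))
  have h3' : (3 : RatFunc k) ≠ 0 := by
    rw [← map_ofNat (algebraMap k (RatFunc k)) 3]
    exact fun h => h3 (hinj (by rw [h, map_zero]))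
  have hΔg : ((sw f4 f6).map (algebraMap k[X] (RatFunc k))).Δ ≠ 0 := by
    rw [map_Δ]
    intro h0
    have hz : (sw f4 f6).Δ = 0 :=
      (IsFractionRing.injective k[X] (RatFunc k)) (by rw [h0, map_zero])
    apply hΔ0
    rw [← hW t0, map_Δ, hz, map_zero]
  have hS : ∀ i, ∃ h : ((sw f4 f6).map (algebraMap k[X] (RatFunc k))).toAffine.Nonsingular
      (algebraMap k[X] (RatFunc k) (σ i).xP) (algebraMap k[X] (RatFunc k) (σ i).yP),
      (5 : ℤ) • Affine.Point.some _ _ h = 0 :=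
    fun i => (σ i).torsion_map (algebraMap k[X] (RatFunc k)) h2' h3' hΔg
  choose hS htors using hS
  have h5' : ((5 : ℕ) : k) ≠ 0 := by exact_mod_cast h5
  have e0 := SpecRed.spec_rel 5 h5' t0 (sw f4 f6) _ (hW t0) hΔ0 (fun i => (σ i).xP)
    (fun i => (σ i).yP) hS hs0 (fun i => by exact_mod_cast htors i) u
  have e1 := SpecRed.spec_rel 5 h5' t1 (sw f4 f6) _ (hW t1) hΔ1 (fun i => (σ i).xP)
    (fun i => (σ i).yP) hS hs1 (fun i => by exact_mod_cast htors i) u
  exact e0.symm.trans e1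

end Sections

end Fermat.Agent.S52.X5Fl.TransportB
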