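import Mathlib
import Fermat.Agent.S52.BridgeRed

/-!
# S52 / [X5Fl] step (3), B-copy: the valuation subring of `RatFunc k` at `T = t₀`

`valAt t₀` is the valuation subring of `RatFunc k` attached to the prime `(X - t₀)` of `k[X]`.
It contains `k[X]`, `X - t₀` is a nonunit, and the residue class of a polynomial `p` is the image
of `p.eval t₀` under the (injective) ring homomorphism `iota t₀ : k →+* ResidueField (valAt t₀)`.
-/

set_option autoImplicit false

namespace Fermat.Agent.S52.X5Fl.ValB

open Polynomial IsDedekindDomain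

variable {k : Type*} [Field k]

/-- The height one prime `(X - t₀)` of `k[X]`. -/
noncomputable def primeAt (t₀ : k) : HeightOneSpectrum k[X] where
  asIdeal := Ideal.span {X - C t₀}
  isPrime := by
    rw [Ideal.span_singleton_prime (X_sub_C_ne_zero t₀)]
    exact prime_X_sub_C t₀
  ne_bot := by
    rw [ne_eq, Ideal.span_singleton_eq_bot]
    exact X_sub_C_ne_zero t₀

/-- The valuation subring of `RatFunc k` at `T = t₀`. -/
noncomputable def valAt (t₀ : k) : ValuationSubring (RatFunc k) :=
  ((primeAt t₀).valuation (RatFunc k)).valuationSubring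

theorem poly_mem (t₀ : k) (p : k[X]) : algebraMap k[X] (RatFunc k) p ∈ valAt t₀ := by
  unfold valAt
  rw [Valuation.mem_valuationSubring_iff]
  exact (primeAt t₀).valuation_le_one p

theorem const_mem (t₀ : k) (a : k) : algebraMap k (RatFunc k) a ∈ valAt t₀ := by
  rw [IsScalarTower.algebraMap_apply k k[X] (RatFunc k)]
  exact poly_mem t₀ _

theorem poly_mem_nonunits (t₀ : k) {p : k[X]} (hp : p.eval t₀ = 0) :
    algebraMap k[X] (RatFunc k) p ∈ (valAt t₀).nonunits := by
  have hlt : (primeAt t₀).valuation (RatFunc k) (algebraMap k[X] (RatFunc k) p) < 1 := by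
    rw [HeightOneSpectrum.valuation_lt_one_iff_mem]
    show p ∈ Ideal.span {X - C t₀}
    rw [Ideal.mem_span_singleton]
    exact dvd_iff_isRoot.mpr hp
  rw [ValuationSubring.mem_nonunits_iff]
  have he := Valuation.isEquiv_valuation_valuationSubring ((primeAt t₀).valuation (RatFunc k))
  exact (he.lt_one_iff_lt_one).mp hlt

theorem X_sub_C_mem_nonunits (t₀ : k) :
    algebraMap k[X] (RatFunc k) (X - C t₀) ∈ (valAt t₀).nonunits :=
  poly_mem_nonunits t₀ (by simp)

/-- The constants map into the residue field of `valAt t₀`. -/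
noncomputable def iota (t₀ : k) : k →+* IsLocalRing.ResidueField (valAt t₀) :=
  (IsLocalRing.residue (valAt t₀)).comp
    ((algebraMap k (RatFunc k)).codRestrict (valAt t₀).toSubring (const_mem t₀))

theorem iota_injective (t₀ : k) : Function.Injective (iota t₀) :=
  RingHom.injective _

theorem res_const (t₀ : k) (a : k) :
    Bridge.res (valAt t₀) (algebraMap k (RatFunc k) a) = iota t₀ a := by
  rw [Bridge.res_of_mem _ (const_mem t₀ a)]
  rfl

/-- The residue class of a polynomial is its value at `t₀`. -/
theorem res_poly (t₀ : k) (p : k[X]) :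
    Bridge.res (valAt t₀) (algebraMap k[X] (RatFunc k) p) = iota t₀ (p.eval t₀) := by
  rw [← res_const, Bridge.res_eq_iff _ (poly_mem t₀ p) (const_mem t₀ _)]
  have h : algebraMap k[X] (RatFunc k) p - algebraMap k (RatFunc k) (p.eval t₀) =
      algebraMap k[X] (RatFunc k) (p - C (p.eval t₀)) := by
    rw [map_sub, IsScalarTower.algebraMap_apply k k[X] (RatFunc k)]
    rfl
  rw [h]
  exact poly_mem_nonunits t₀ (by simp)

theorem res_X (t₀ : k) : Bridge.res (valAt t₀) (RatFunc.X : RatFunc k) = iota t₀ t₀ := by
  have h := res_poly t₀ (X : k[X])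
  rwa [RatFunc.algebraMap_X, eval_X] at h

/-- A natural number that is nonzero in `k` is a unit of `valAt t₀`. -/
theorem valuation_natCast_eq_one (t₀ : k) {n : ℕ} (hn : (n : k) ≠ 0) :
    (valAt t₀).valuation ((n : ℕ) : RatFunc k) = 1 := by
  apply Bridge.valuation_natCast_eq_one
  have h := res_const t₀ (n : k)
  rw [map_natCast] at h
  rw [h]
  exact fun h0 => hn (iota_injective t₀ (by rw [h0, map_zero]))

end Fermat.Agent.S52.X5Fl.ValB
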